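/-
Affine charts of `C × Spec R` coming from affine charts of `C`.
-/
import Fermat.Agent.Picard.Modules.Affine
import Fermat.Agent.Picard.CurveModelDef

set_option autoImplicit false

universe u

open CategoryTheory CategoryTheory.Limits AlgebraicGeometry TopologicalSpace Opposite NeronModelInfra
  AlgebraicGeometry.RelPicard
open scoped TensorProduct

namespace Fermat.Agent.Picard

noncomputable section

variable {k : Type u} [Field k] {C : Scheme.{u}} {c : C ⟶ Spec (CommRingCat.of k)}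

/-- An affine chart of `C`. -/
structure AffineChart (c : C ⟶ Spec (CommRingCat.of k)) where
  S : Type u
  [commRing : CommRing S]
  [algebra : Algebra k S]
  i : Spec (CommRingCat.of S) ⟶ C
  [isOpenImmersion : IsOpenImmersion i]
  i_c : i ≫ c = Spec.map (CommRingCat.ofHom (algebraMap k S))

attribute [instance] AffineChart.commRing AffineChart.algebra AffineChart.isOpenImmersion

/-- The structure map of `Spec R`. -/
abbrev specTo (k : Type u) [Field k] (R : Type u) [CommRing R] [Algebra k R] :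
    Spec (CommRingCat.of R) ⟶ Spec (CommRingCat.of k) :=
  Spec.map (CommRingCat.ofHom (algebraMap k R))

namespace AffineChart

variable (Q : AffineChart c) (R : Type u) [CommRing R] [Algebra k R]

/-- The chart of `C × Spec R` over a chart of `C`. -/
def j : Spec (CommRingCat.of (R ⊗[k] Q.S)) ⟶ pullback c (specTo k R) :=
  pullback.lift
    (Spec.map (CommRingCat.ofHom
      (Algebra.TensorProduct.includeRight : Q.S →ₐ[k] R ⊗[k] Q.S).toRingHom) ≫ Q.i)
    (Spec.map (CommRingCat.ofHom (algebraMap R (R ⊗[k] Q.S))))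
    (by
      rw [Category.assoc, Q.i_c, ← Spec.map_comp, ← Spec.map_comp, ← CommRingCat.ofHom_comp,
        ← CommRingCat.ofHom_comp]
      congr 2
      ext r
      simp [Algebra.algebraMap_eq_smul_one, TensorProduct.smul_tmul])

lemma j_fst : Q.j R ≫ pullback.fst c (specTo k R) =
    Spec.map (CommRingCat.ofHom
      (Algebra.TensorProduct.includeRight : Q.S →ₐ[k] R ⊗[k] Q.S).toRingHom) ≫ Q.i :=
  pullback.lift_fst _ _ _

lemma j_snd : Q.j R ≫ pullback.snd c (specTo k R) =
    Spec.map (CommRingCat.ofHom (algebraMap R (R ⊗[k] Q.S))) :=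
  pullback.lift_snd _ _ _

lemma isPullback_j : IsPullback (Q.j R)
    (Spec.map (CommRingCat.ofHom
      (Algebra.TensorProduct.includeRight : Q.S →ₐ[k] R ⊗[k] Q.S).toRingHom))
    (pullback.fst c (specTo k R)) Q.i := by
  have hbig : IsPullback
      (Spec.map (CommRingCat.ofHom (algebraMap R (R ⊗[k] Q.S))))
      (Spec.map (CommRingCat.ofHom
        (Algebra.TensorProduct.includeRight : Q.S →ₐ[k] R ⊗[k] Q.S).toRingHom))
      (specTo k R) (Q.i ≫ c) := by
    rw [Q.i_c]
    exact isPullback_SpecMap_of_isPushout _ _ _ _ (CommRingCat.isPushout_tensorProduct k R Q.S)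
  refine IsPullback.of_right ?_ (Q.j_fst R) (IsPullback.of_hasPullback c (specTo k R)).flip
  rw [Q.j_snd]
  exact hbig

instance : IsOpenImmersion (Q.j R) :=
  MorphismProperty.of_isPullback (Q.isPullback_j R).flip Q.isOpenImmersion

/-- The open of the chart. -/
def W : (pullback c (specTo k R)).Opens := Q.j R ''ᵁ ⊤

lemma W_eq : Q.W R = pullback.fst c (specTo k R) ⁻¹ᵁ Q.i.opensRange := by
  apply Opens.ext
  change (Q.j R).base '' Set.univ = pullback.fst c (specTo k R) ⁻¹' Set.range Q.i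
  rw [Set.image_univ, ← (Q.isPullback_j R).isoPullback_hom_fst]
  have h1 : ∀ {Z Z' : Scheme.{u}} (e : Z ≅ Z') (g : Z' ⟶ pullback c (specTo k R)),
      Set.range (e.hom ≫ g) = Set.range g := fun e g ↦ by
    rw [show ⇑(e.hom ≫ g) = ⇑g ∘ ⇑e.hom from funext fun x ↦ Scheme.Hom.comp_apply _ _ _,
      Set.range_comp, Set.range_eq_univ.2 e.hom.surjective, Set.image_univ]
  rw [h1, Scheme.Pullback.range_fst]

lemma isAffineOpen_W : IsAffineOpen (Q.W R) :=
  (isAffineOpen_top _).image_of_isOpenImmersion _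

/-- Functions on the chart. -/
def φ : R ⊗[k] Q.S ≃+* Γ(pullback c (specTo k R), Q.W R) :=
  ((Scheme.ΓSpecIso (CommRingCat.of (R ⊗[k] Q.S))).symm ≪≫
    ((Q.j R).appIso ⊤).symm).commRingCatIsoToRingEquiv

lemma le_preimage_W : (⊤ : (Spec (CommRingCat.of (R ⊗[k] Q.S))).Opens) ≤ Q.j R ⁻¹ᵁ Q.W R :=
  fun x _ ↦ ⟨x, trivial, rfl⟩

lemma appLE_φ (a : R ⊗[k] Q.S) :
    ((Q.j R).appLE (Q.W R) ⊤ (Q.le_preimage_W R)).hom (Q.φ R a) =
      (Scheme.ΓSpecIso (CommRingCat.of (R ⊗[k] Q.S))).inv.hom a := by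
  have h := (Q.j R).appIso_hom' ⊤
  have e : ((Q.j R).appIso ⊤).hom.hom (Q.φ R a) =
      (Scheme.ΓSpecIso (CommRingCat.of (R ⊗[k] Q.S))).inv.hom a := by
    change (((Q.j R).appIso ⊤).inv ≫ ((Q.j R).appIso ⊤).hom).hom _ = _
    rw [Iso.inv_hom_id]
    rfl
  rw [h] at e
  exact e

lemma eq_φ {a : R ⊗[k] Q.S} {s : Γ(pullback c (specTo k R), Q.W R)}
    (h : ((Q.j R).appLE (Q.W R) ⊤ (Q.le_preimage_W R)).hom s =
      (Scheme.ΓSpecIso (CommRingCat.of (R ⊗[k] Q.S))).inv.hom a) : s = Q.φ R a := by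
  refine (ConcreteCategory.bijective_of_isIso ((Q.j R).appIso ⊤).hom).1 ?_
  rw [(Q.j R).appIso_hom']
  exact h.trans (Q.appLE_φ R a).symm

/-- Comparison of charts along a morphism of the bases. -/
lemma app_φ {Q Q' : AffineChart c} {R R' : Type u} [CommRing R] [Algebra k R] [CommRing R']
    [Algebra k R'] (g : pullback c (specTo k R') ⟶ pullback c (specTo k R))
    (φ' : R ⊗[k] Q.S →+* R' ⊗[k] Q'.S)
    (hg : Q'.j R' ≫ g = Spec.map (CommRingCat.ofHom φ') ≫ Q.j R)
    (h : Q'.W R' ≤ g ⁻¹ᵁ Q.W R) (a : R ⊗[k] Q.S) :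
    (g.appLE (Q.W R) (Q'.W R') h).hom (Q.φ R a) = Q'.φ R' (φ' a) := by
  refine Q'.eq_φ R' ?_
  rw [← RingHom.comp_apply, ← CommRingCat.hom_comp, Scheme.Hom.appLE_comp_appLE]
  have key : ∀ (f : Spec (CommRingCat.of (R' ⊗[k] Q'.S)) ⟶ pullback c (specTo k R))
      (hf : f = Spec.map (CommRingCat.ofHom φ') ≫ Q.j R) (hle : ⊤ ≤ f ⁻¹ᵁ Q.W R),
      (f.appLE (Q.W R) ⊤ hle).hom (Q.φ R a) =
        (Scheme.ΓSpecIso (CommRingCat.of (R' ⊗[k] Q'.S))).inv.hom (φ' a) := by
    rintro _ rfl hle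
    rw [← Scheme.Hom.appLE_comp_appLE _ _ (Q.W R) ⊤ ⊤ (Q.le_preimage_W R) (le_top.trans (by simp)),
      CommRingCat.hom_comp, RingHom.comp_apply, Q.appLE_φ R]
    have e := congrArg (fun t ↦ t.hom a)
      (Scheme.ΓSpecIso_inv_naturality (CommRingCat.ofHom φ'))
    simp only [CommRingCat.hom_comp, RingHom.comp_apply] at e
    refine Eq.trans ?_ e.symm
    rw [Scheme.Hom.appLE]
    rw [CommRingCat.hom_comp, RingHom.comp_apply]
    exact ores_self _ _
  exact key _ hg _

/-- A morphism of charts. -/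
lemma j_map {Q Q' : AffineChart c} (f : Q.S →ₐ[k] Q'.S)
    (hf : Spec.map (CommRingCat.ofHom f.toRingHom) ≫ Q.i = Q'.i) (R : Type u) [CommRing R]
    [Algebra k R] :
    Q'.j R = Spec.map (CommRingCat.ofHom
      (Algebra.TensorProduct.map (AlgHom.id R R) f).toRingHom) ≫ Q.j R := by
  apply pullback.hom_ext
  · rw [Category.assoc, Q.j_fst, Q'.j_fst, ← hf, ← Category.assoc, ← Category.assoc, ← Spec.map_comp,
      ← Spec.map_comp, ← CommRingCat.ofHom_comp, ← CommRingCat.ofHom_comp]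
    congr 3
  · rw [Category.assoc, Q.j_snd, Q'.j_snd, ← Spec.map_comp, ← CommRingCat.ofHom_comp]
    congr 2
    exact (Algebra.TensorProduct.map (AlgHom.id R R) f).comp_algebraMap.symm

/-- The morphism of products over a morphism of bases. -/
abbrev baseMap {R R' : Type u} [CommRing R] [Algebra k R] [CommRing R'] [Algebra k R']
    (f : R →ₐ[k] R') : SchemeHomOver (specTo k R') (specTo k R) :=
  ⟨Spec.map (CommRingCat.ofHom f.toRingHom), by
    rw [← Spec.map_comp, ← CommRingCat.ofHom_comp, AlgHom.toRingHom_eq_coe,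
      AlgHom.comp_algebraMap]⟩

lemma j_baseChange {R R' : Type u} [CommRing R] [Algebra k R] [CommRing R'] [Algebra k R']
    (f : R →ₐ[k] R') :
    Q.j R' ≫ baseChangeSnd c (baseMap f) =
      Spec.map (CommRingCat.ofHom (TwoChart.baseHom f Q.S)) ≫ Q.j R := by
  apply pullback.hom_ext
  · simp only [baseChangeSnd, Category.assoc, pullback.lift_fst, Category.comp_id, j_fst]
    rw [← Category.assoc, ← Spec.map_comp, ← CommRingCat.ofHom_comp]
    congr 3
    ext a
    simp [TwoChart.baseHom]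
  · simp only [baseChangeSnd, Category.assoc, pullback.lift_snd, j_snd]
    rw [← Category.assoc, Q.j_snd, ← Spec.map_comp, ← Spec.map_comp, ← CommRingCat.ofHom_comp,
      ← CommRingCat.ofHom_comp]
    congr 2

lemma preimage_W {R R' : Type u} [CommRing R] [Algebra k R] [CommRing R'] [Algebra k R']
    (f : R →ₐ[k] R') : baseChangeSnd c (baseMap f) ⁻¹ᵁ Q.W R = Q.W R' := by
  rw [W_eq, W_eq, ← Scheme.Hom.comp_preimage]
  simp only [baseChangeSnd, pullback.lift_fst, Category.comp_id]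

end AffineChart

/-- The three charts of a curve model. -/
abbrev CurveModel.chartA {ε : SchemeHomOver (𝟙 (Spec (CommRingCat.of k))) c}
    (𝓒 : CurveModel c ε) : AffineChart c where
  S := 𝓒.X.A
  i := 𝓒.iA
  i_c := 𝓒.iA_c

/-- The second chart. -/
abbrev CurveModel.chartB {ε : SchemeHomOver (𝟙 (Spec (CommRingCat.of k))) c}
    (𝓒 : CurveModel c ε) : AffineChart c where
  S := 𝓒.X.B
  i := 𝓒.iB
  i_c := 𝓒.iB_c

/-- The overlap chart. -/
abbrev CurveModel.chartW {ε : SchemeHomOver (𝟙 (Spec (CommRingCat.of k))) c}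
    (𝓒 : CurveModel c ε) : AffineChart c where
  S := 𝓒.X.W
  i := Spec.map (CommRingCat.ofHom (algebraMap 𝓒.X.A 𝓒.X.W)) ≫ 𝓒.iA
  isOpenImmersion := by
    have : IsOpenImmersion (Spec.map (CommRingCat.ofHom (algebraMap 𝓒.X.A 𝓒.X.W))) :=
      IsOpenImmersion.of_isLocalization 𝓒.X.x
    infer_instance
  i_c := by
    rw [Category.assoc, 𝓒.iA_c, ← Spec.map_comp, ← CommRingCat.ofHom_comp,
      ← IsScalarTower.algebraMap_eq]

end

end Fermat.Agent.Picard
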