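/-
From invertible sheaves on `C × Spec R` to triples.
-/
import Fermat.Agent.Picard.Bridge.Chart

set_option autoImplicit false

universe u

open CategoryTheory CategoryTheory.Limits AlgebraicGeometry TopologicalSpace Opposite NeronModelInfra
  AlgebraicGeometry.RelPicard
open scoped TensorProduct

namespace Fermat.Agent.Picard

noncomputable section

variable {k : Type u} [Field k] {C : Scheme.{u}} {c : C ⟶ Spec (CommRingCat.of k)}
  {ε : SchemeHomOver (𝟙 (Spec (CommRingCat.of k))) c} (𝓒 : CurveModel c ε)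
  (R : Type u) [CommRing R] [Algebra k R]

namespace CurveModel

/-- The section opens. -/
abbrev WA : (pullback c (specTo k R)).Opens := 𝓒.chartA.W R
/-- The second open. -/
abbrev WB : (pullback c (specTo k R)).Opens := 𝓒.chartB.W R
/-- The overlap. -/
abbrev WW : (pullback c (specTo k R)).Opens := 𝓒.chartW.W R

/-- functions on the first open -/
def φA : R ⊗[k] 𝓒.X.A ≃+* Γ(pullback c (specTo k R), 𝓒.WA R) := 𝓒.chartA.φ R
/-- functions on the second open -/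
def φB : R ⊗[k] 𝓒.X.B ≃+* Γ(pullback c (specTo k R), 𝓒.WB R) := 𝓒.chartB.φ R
/-- functions on the overlap -/
def φW : R ⊗[k] 𝓒.X.W ≃+* Γ(pullback c (specTo k R), 𝓒.WW R) := 𝓒.chartW.φ R

lemma iW_eq_B : Spec.map (CommRingCat.ofHom (algebraMap 𝓒.X.B 𝓒.X.W)) ≫ 𝓒.iB =
    𝓒.chartW.i := 𝓒.isPullback.w.symm

end CurveModel

lemma AffineChart.image_preimage_eq (Q : AffineChart c) (V : (Spec (CommRingCat.of Q.S)).Opens) :
    Q.j R ''ᵁ (Spec.map (CommRingCat.ofHom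
      (Algebra.TensorProduct.includeRight : Q.S →ₐ[k] R ⊗[k] Q.S).toRingHom) ⁻¹ᵁ V) =
      pullback.fst c (specTo k R) ⁻¹ᵁ (Q.i ''ᵁ V) := by
  set inc := Spec.map (CommRingCat.ofHom
    (Algebra.TensorProduct.includeRight : Q.S →ₐ[k] R ⊗[k] Q.S).toRingHom)
  have hcomp : ∀ y, pullback.fst c (specTo k R) (Q.j R y) = Q.i (inc y) := fun y ↦ by
    rw [← Scheme.Hom.comp_apply, Q.j_fst]
    rfl
  ext z
  constructor
  · rintro ⟨y, hy, rfl⟩
    exact ⟨inc y, hy, (hcomp y).symm⟩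
  · rintro ⟨v, hv, hvz⟩
    obtain ⟨y, -, rfl⟩ : z ∈ Q.W R := by
      rw [Q.W_eq R]
      exact ⟨v, hvz⟩
    exact ⟨y, by
      change inc y ∈ V
      rwa [← Q.i.isOpenEmbedding.injective (hvz.trans (hcomp y))], rfl⟩

lemma AffineChart.basicOpen_φ (Q : AffineChart c) (a : R ⊗[k] Q.S) :
    (pullback c (specTo k R)).basicOpen (Q.φ R a) =
      Q.j R ''ᵁ (PrimeSpectrum.basicOpen a : (Spec (CommRingCat.of (R ⊗[k] Q.S))).Opens) := by
  refine Eq.trans ?_ (congrArg (fun U ↦ Q.j R ''ᵁ U)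
    (basicOpen_eq_of_affine (R := CommRingCat.of (R ⊗[k] Q.S)) a))
  exact (Scheme.image_basicOpen (Q.j R) _).symm

lemma AffineChart.basicOpen_φ_one_tmul (Q : AffineChart c) (a : Q.S) :
    (pullback c (specTo k R)).basicOpen (Q.φ R (1 ⊗ₜ[k] a)) =
      pullback.fst c (specTo k R) ⁻¹ᵁ
        (Q.i ''ᵁ (PrimeSpectrum.basicOpen a : (Spec (CommRingCat.of Q.S)).Opens)) := by
  refine (Q.basicOpen_φ R _).trans (Eq.trans ?_ (Q.image_preimage_eq R _))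
  rfl

lemma opensRange_away {S S' : Type u} [CommRing S] [CommRing S'] [Algebra S S'] (x : S)
    [IsLocalization.Away x S'] (Y : Scheme.{u}) (i : Spec (CommRingCat.of S) ⟶ Y)
    [IsOpenImmersion i] [IsOpenImmersion (Spec.map (CommRingCat.ofHom (algebraMap S S')) ≫ i)] :
    (Spec.map (CommRingCat.ofHom (algebraMap S S')) ≫ i).opensRange =
      i ''ᵁ (PrimeSpectrum.basicOpen x : (Spec (CommRingCat.of S)).Opens) := by
  apply Opens.ext
  change Set.range (Spec.map (CommRingCat.ofHom (algebraMap S S')) ≫ i) = i '' _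
  rw [show ⇑(Spec.map (CommRingCat.ofHom (algebraMap S S')) ≫ i) =
    ⇑i ∘ ⇑(Spec.map (CommRingCat.ofHom (algebraMap S S'))) from
      funext fun y ↦ Scheme.Hom.comp_apply _ _ _, Set.range_comp]
  congr 1
  exact PrimeSpectrum.localization_away_comap_range S' x

namespace CurveModel

lemma WW_eq_basicOpen_A :
    𝓒.WW R = (pullback c (specTo k R)).basicOpen (𝓒.φA R (1 ⊗ₜ[k] 𝓒.X.x)) := by
  refine Eq.trans ?_ (𝓒.chartA.basicOpen_φ_one_tmul R 𝓒.X.x).symm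
  change 𝓒.chartW.W R = _
  rw [AffineChart.W_eq]
  congr 1
  have : IsOpenImmersion (Spec.map (CommRingCat.ofHom (algebraMap 𝓒.X.A 𝓒.X.W)) ≫ 𝓒.iA) :=
    𝓒.chartW.isOpenImmersion
  exact opensRange_away 𝓒.X.x C 𝓒.iA

lemma WW_eq_basicOpen_B :
    𝓒.WW R = (pullback c (specTo k R)).basicOpen (𝓒.φB R (1 ⊗ₜ[k] 𝓒.X.y)) := by
  refine Eq.trans ?_ (𝓒.chartB.basicOpen_φ_one_tmul R 𝓒.X.y).symm
  change 𝓒.chartW.W R = _
  rw [AffineChart.W_eq]
  congr 1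
  have h : ∀ (f : Spec (CommRingCat.of 𝓒.X.W) ⟶ C) (_ : IsOpenImmersion f)
      (_ : Spec.map (CommRingCat.ofHom (algebraMap 𝓒.X.B 𝓒.X.W)) ≫ 𝓒.iB = f),
      f.opensRange = 𝓒.iB ''ᵁ
        (PrimeSpectrum.basicOpen 𝓒.X.y : (Spec (CommRingCat.of 𝓒.X.B)).Opens) := by
    rintro _ _ rfl
    exact opensRange_away 𝓒.X.y C 𝓒.iB
  exact h _ _ 𝓒.iW_eq_B

lemma WW_le_WA : 𝓒.WW R ≤ 𝓒.WA R :=
  (𝓒.WW_eq_basicOpen_A R).le.trans (Scheme.basicOpen_le _ _)

lemma WW_le_WB : 𝓒.WW R ≤ 𝓒.WB R :=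
  (𝓒.WW_eq_basicOpen_B R).le.trans (Scheme.basicOpen_le _ _)

lemma WA_sup_WB : 𝓒.WA R ⊔ 𝓒.WB R = ⊤ := by
  rw [WA, WB, AffineChart.W_eq, AffineChart.W_eq]
  apply Opens.ext
  ext z
  simp only [Opens.coe_sup, Set.mem_union, Opens.coe_top, Set.mem_univ, iff_true]
  have h : pullback.fst c (specTo k R) z ∈ (𝓒.iA.opensRange ⊔ 𝓒.iB.opensRange : C.Opens) :=
    𝓒.cover.symm ▸ trivial
  exact h

lemma res_φA (a : R ⊗[k] 𝓒.X.A) :
    ores _ (𝓒.WW_le_WA R) (𝓒.φA R a) = 𝓒.φW R (𝓒.X.resA R a) := by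
  have h := AffineChart.app_φ (Q := 𝓒.chartA) (Q' := 𝓒.chartW) (R := R) (R' := R) (𝟙 _)
    (𝓒.X.resA R) (by
      rw [Category.comp_id, AffineChart.j_map (Q := 𝓒.chartA) (Q' := 𝓒.chartW)
        (IsScalarTower.toAlgHom k 𝓒.X.A 𝓒.X.W) rfl R]
      rfl)
    (by simpa using 𝓒.WW_le_WA R) a
  refine Eq.trans ?_ h
  simp [Scheme.Hom.appLE, ores]
  rfl

lemma res_φB (a : R ⊗[k] 𝓒.X.B) :
    ores _ (𝓒.WW_le_WB R) (𝓒.φB R a) = 𝓒.φW R (𝓒.X.resB R a) := by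
  have h := AffineChart.app_φ (Q := 𝓒.chartB) (Q' := 𝓒.chartW) (R := R) (R' := R) (𝟙 _)
    (𝓒.X.resB R) (by
      rw [Category.comp_id, AffineChart.j_map (Q := 𝓒.chartB) (Q' := 𝓒.chartW)
        (IsScalarTower.toAlgHom k 𝓒.X.B 𝓒.X.W) 𝓒.iW_eq_B R]
      rfl)
    (by simpa using 𝓒.WW_le_WB R) a
  refine Eq.trans ?_ h
  simp [Scheme.Hom.appLE, ores]
  rfl

variable {R} (M : (pullback c (specTo k R)).Modules)

/-- sections on the first chart, with the module structure over `R ⊗ A` -/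
def SecA : Type u := Γ(M, 𝓒.WA R)
/-- sections on the second chart -/
def SecB : Type u := Γ(M, 𝓒.WB R)
/-- sections on the overlap -/
def SecW : Type u := Γ(M, 𝓒.WW R)

instance : AddCommGroup (𝓒.SecA M) := inferInstanceAs (AddCommGroup Γ(M, 𝓒.WA R))
instance : AddCommGroup (𝓒.SecB M) := inferInstanceAs (AddCommGroup Γ(M, 𝓒.WB R))
instance : AddCommGroup (𝓒.SecW M) := inferInstanceAs (AddCommGroup Γ(M, 𝓒.WW R))
instance : Module (R ⊗[k] 𝓒.X.A) (𝓒.SecA M) :=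
  Module.compHom Γ(M, 𝓒.WA R) (𝓒.φA R).toRingHom
instance : Module (R ⊗[k] 𝓒.X.B) (𝓒.SecB M) :=
  Module.compHom Γ(M, 𝓒.WB R) (𝓒.φB R).toRingHom
instance : Module (R ⊗[k] 𝓒.X.W) (𝓒.SecW M) :=
  Module.compHom Γ(M, 𝓒.WW R) (𝓒.φW R).toRingHom

end CurveModel

/-- Transport of invertibility along an isomorphism of rings. -/
lemma invertible_compHom {S T : Type u} [CommRing S] [CommRing T] (e : S ≃+* T) {N : Type u}
    [AddCommGroup N] [Module T N] [Module.Invertible T N] :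
    letI := Module.compHom N e.toRingHom
    Module.Invertible S N := by
  let : Algebra T S := e.symm.toRingHom.toAlgebra
  let : Module S N := Module.compHom N e.toRingHom
  have : IsScalarTower T S N := IsScalarTower.of_algebraMap_smul fun t n ↦ by
    change e (e.symm t) • n = t • n
    rw [e.apply_symm_apply]
  refine Module.Invertible.congr (M := S ⊗[T] N)
    (LinearEquiv.ofBijective (LinearMap.liftBaseChange S (LinearMap.id : N →ₗ[T] N)) ⟨?_, ?_⟩)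
  · refine Function.LeftInverse.injective (g := fun n : N ↦ (1 : S) ⊗ₜ[T] n) fun z ↦ ?_
    induction z with
    | zero => simp
    | tmul s n =>
      have hs : s = algebraMap T S (e s) := (e.symm_apply_apply s).symm
      simp only [LinearMap.liftBaseChange_tmul, LinearMap.id_apply]
      rw [hs, algebraMap_smul, TensorProduct.tmul_smul, TensorProduct.smul_tmul',
        Algebra.smul_def, mul_one]
    | add z w hz hw => simp only [map_add, TensorProduct.tmul_add, hz, hw]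
  · exact fun n ↦ ⟨(1 : S) ⊗ₜ n, by simp⟩

namespace CurveModel

variable {R} {M : (pullback c (specTo k R)).Modules}

lemma invertible_secA (hM : Scheme.Modules.IsInvertible M) :
    Module.Invertible (R ⊗[k] 𝓒.X.A) (𝓒.SecA M) :=
  haveI := invertible_sections hM (𝓒.chartA.isAffineOpen_W R)
  invertible_compHom (𝓒.φA R) (N := Γ(M, 𝓒.WA R))

lemma invertible_secB (hM : Scheme.Modules.IsInvertible M) :
    Module.Invertible (R ⊗[k] 𝓒.X.B) (𝓒.SecB M) :=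
  haveI := invertible_sections hM (𝓒.chartB.isAffineOpen_W R)
  invertible_compHom (𝓒.φB R) (N := Γ(M, 𝓒.WB R))

lemma invertible_secW (hM : Scheme.Modules.IsInvertible M) :
    Module.Invertible (R ⊗[k] 𝓒.X.W) (𝓒.SecW M) :=
  haveI := invertible_sections hM (𝓒.chartW.isAffineOpen_W R)
  invertible_compHom (𝓒.φW R) (N := Γ(M, 𝓒.WW R))

lemma surj_aux {P : Scheme.{u}} {N : P.Modules} (hN : Scheme.Modules.IsInvertible N)
    {U V : P.Opens} (hU : IsAffineOpen U) (f : Γ(P, U)) (hV : V = P.basicOpen f) (hle : V ≤ U)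
    (w : Γ(N, V)) : ∃ (n : ℕ) (m : Γ(N, U)), ores P hle f ^ n • w = mres N hle m := by
  subst hV
  obtain ⟨n, m, hm⟩ := sec_exists hN hU f w
  exact ⟨n, m, hm.symm⟩

lemma inj_aux {P : Scheme.{u}} {N : P.Modules} (hN : Scheme.Modules.IsInvertible N)
    {U V : P.Opens} (hU : IsAffineOpen U) (f : Γ(P, U)) (hV : V = P.basicOpen f) (hle : V ≤ U)
    (m : Γ(N, U)) (h : mres N hle m = 0) : ∃ n : ℕ, f ^ n • m = 0 := by
  subst hV
  exact sec_sep hN hU f m h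

/-- The triple of an invertible sheaf. -/
def toTri (M : (pullback c (specTo k R)).Modules) (hM : Scheme.Modules.IsInvertible M) :
    𝓒.X.Tri R where
  MA := 𝓒.SecA M
  MB := 𝓒.SecB M
  MW := 𝓒.SecW M
  invA := 𝓒.invertible_secA hM
  invB := 𝓒.invertible_secB hM
  invW := 𝓒.invertible_secW hM
  fA :=
    { toFun := fun m ↦ mres M (𝓒.WW_le_WA R) m
      map_add' := fun m m' ↦ mres_add _ _ _
      map_smul' := fun a m ↦ by
        change mres M (𝓒.WW_le_WA R) (𝓒.φA R a • (show Γ(M, 𝓒.WA R) from m)) =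
          𝓒.φW R (𝓒.X.resA R a) • mres M (𝓒.WW_le_WA R) (show Γ(M, 𝓒.WA R) from m)
        rw [mres_smul, res_φA] }
  fB :=
    { toFun := fun m ↦ mres M (𝓒.WW_le_WB R) m
      map_add' := fun m m' ↦ mres_add _ _ _
      map_smul' := fun a m ↦ by
        change mres M (𝓒.WW_le_WB R) (𝓒.φB R a • (show Γ(M, 𝓒.WB R) from m)) =
          𝓒.φW R (𝓒.X.resB R a) • mres M (𝓒.WW_le_WB R) (show Γ(M, 𝓒.WB R) from m)
        rw [mres_smul, res_φB] }
  surjA w := by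
    obtain ⟨n, m, hm⟩ := surj_aux hM (𝓒.chartA.isAffineOpen_W R) _ (𝓒.WW_eq_basicOpen_A R)
      (𝓒.WW_le_WA R) w
    refine ⟨n, m, ?_⟩
    change 𝓒.φW R (((1 : R) ⊗ₜ[k] algebraMap 𝓒.X.A 𝓒.X.W 𝓒.X.x) ^ n) • (show Γ(M, 𝓒.WW R) from w) = _
    rw [map_pow, show (1 : R) ⊗ₜ[k] algebraMap 𝓒.X.A 𝓒.X.W 𝓒.X.x =
      𝓒.X.resA R (1 ⊗ₜ[k] 𝓒.X.x) by simp [TwoChart.resA], ← res_φA]
    exact hm
  injA m h := by
    obtain ⟨n, hn⟩ := inj_aux hM (𝓒.chartA.isAffineOpen_W R) _ (𝓒.WW_eq_basicOpen_A R)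
      (𝓒.WW_le_WA R) m h
    refine ⟨n, ?_⟩
    change 𝓒.φA R (((1 : R) ⊗ₜ[k] 𝓒.X.x) ^ n) • (show Γ(M, 𝓒.WA R) from m) = (0 : Γ(M, 𝓒.WA R))
    rw [map_pow]
    exact hn
  surjB w := by
    obtain ⟨n, m, hm⟩ := surj_aux hM (𝓒.chartB.isAffineOpen_W R) _ (𝓒.WW_eq_basicOpen_B R)
      (𝓒.WW_le_WB R) w
    refine ⟨n, m, ?_⟩
    change 𝓒.φW R (((1 : R) ⊗ₜ[k] algebraMap 𝓒.X.B 𝓒.X.W 𝓒.X.y) ^ n) • (show Γ(M, 𝓒.WW R) from w) = _
    rw [map_pow, show (1 : R) ⊗ₜ[k] algebraMap 𝓒.X.B 𝓒.X.W 𝓒.X.y =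
      𝓒.X.resB R (1 ⊗ₜ[k] 𝓒.X.y) by simp [TwoChart.resB], ← res_φB]
    exact hm
  injB m h := by
    obtain ⟨n, hn⟩ := inj_aux hM (𝓒.chartB.isAffineOpen_W R) _ (𝓒.WW_eq_basicOpen_B R)
      (𝓒.WW_le_WB R) m h
    refine ⟨n, ?_⟩
    change 𝓒.φB R (((1 : R) ⊗ₜ[k] 𝓒.X.y) ^ n) • (show Γ(M, 𝓒.WB R) from m) = (0 : Γ(M, 𝓒.WB R))
    rw [map_pow]
    exact hn

end CurveModel

end

end Fermat.Agent.Picard
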