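/-
Compatibility of the triple of an invertible sheaf with change of base.
-/
import Fermat.Agent.Picard.Bridge.ToTri

set_option autoImplicit false

universe u

open CategoryTheory CategoryTheory.Limits AlgebraicGeometry TopologicalSpace Opposite NeronModelInfra
  AlgebraicGeometry.RelPicard
open scoped TensorProduct

namespace Fermat.Agent.Picard

noncomputable section

lemma isScalarExtension_transport {S T S' T' : Type u} [CommRing S] [CommRing T] [CommRing S']
    [CommRing T'] (φ : S →+* T) (φ' : S' →+* T') (e : S' ≃+* S) (e' : T' ≃+* T)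
    (hcomm : ∀ s, e' (φ' s) = φ (e s)) {P Q : Type u} [AddCommGroup P] [AddCommGroup Q]
    [Module S P] [Module S' P] [Module T Q] [Module T' Q]
    (hP : ∀ (s : S') (p : P), s • p = e s • p) (hQ : ∀ (t : T') (q : Q), t • q = e' t • q)
    (g : P →ₛₗ[φ] Q) (g' : P →ₛₗ[φ'] Q) (hg : ∀ p, g' p = g p) (h : IsScalarExtension φ g) :
    IsScalarExtension φ' g' := by
  intro Z _ _ k'
  let : Module T Z := Module.compHom Z e'.symm.toRingHom
  have hZ : ∀ (t : T) (z : Z), t • z = e'.symm t • z := fun t z ↦ rfl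
  let k : P →ₛₗ[φ] Z :=
    { toFun := k'
      map_add' := k'.map_add
      map_smul' := fun s p ↦ by
        rw [show s • p = e.symm s • p by rw [hP, e.apply_symm_apply], k'.map_smulₛₗ, hZ,
          show e'.symm (φ s) = φ' (e.symm s) by
            rw [e'.symm_apply_eq, hcomm, e.apply_symm_apply]] }
  obtain ⟨u, hu, huu⟩ := h Z k
  refine ⟨{ toFun := u, map_add' := u.map_add, map_smul' := fun t q ↦ ?_ }, fun p ↦ ?_,
    fun u' hu' ↦ ?_⟩
  · rw [hQ, map_smul, hZ, e'.symm_apply_apply]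
    rfl
  · change u (g' p) = k' p
    rw [hg]
    exact hu p
  · have hlin : ∀ (t : T) (q : Q), u' (t • q) = t • u' q := fun t q ↦ by
      rw [hZ, ← u'.map_smul, hQ, e'.apply_symm_apply]
    let u'' : Q →ₗ[T] Z := { toFun := u', map_add' := u'.map_add, map_smul' := hlin }
    have e := huu u'' fun p ↦ by
      change u' (g p) = k' p
      rw [← hg]
      exact hu' p
    ext q
    exact LinearMap.congr_fun e q

variable {X Y : Scheme.{u}} (g : Y ⟶ X) (M : X.Modules)

/-- Pullback of sections to a given open of the source. -/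
def pullSecTo {U : X.Opens} {V : Y.Opens} (h : V ≤ g ⁻¹ᵁ U) :
    Γ(M, U) →ₛₗ[(g.appLE U V h).hom] Γ((Scheme.Modules.pullback g).obj M, V) where
  toFun m := mres _ h (pullSec g M m)
  map_add' m m' := by rw [pullSec_add, mres_add]
  map_smul' r m := by rw [pullSec_smul, mres_smul]; rfl

lemma mres_pullSecTo {U U' : X.Opens} {V V' : Y.Opens} (h : V ≤ g ⁻¹ᵁ U) (hU : U' ≤ U)
    (h' : V' ≤ g ⁻¹ᵁ U') (hV : V' ≤ V) (m : Γ(M, U)) :
    mres _ hV (pullSecTo g M h m) = pullSecTo g M h' (mres M hU m) := by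
  change mres _ hV (mres _ h (pullSec g M m)) = mres _ h' (pullSec g M (mres M hU m))
  rw [pullSec_mres, mres_mres, mres_mres]

lemma isScalarExtension_pullSecTo (hM : Scheme.Modules.IsInvertible M) {U : X.Opens} {V : Y.Opens}
    (h : g ⁻¹ᵁ U = V) (hU : IsAffineOpen U) (hV : IsAffineOpen V) :
    IsScalarExtension _ (pullSecTo g M h.ge) := by
  subst h
  refine isScalarExtension_transport (g.app U).hom _ (RingEquiv.refl _) (RingEquiv.refl _)
    (fun s ↦ ?_) (fun _ _ ↦ rfl) (fun _ _ ↦ rfl) (pullSecₛₗ g M U) _ (fun m ↦ ?_)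
    (isScalarExtension_pullSec g hM hU hV)
  · simp [Scheme.Hom.appLE]
  · exact mres_self _ _

variable {k : Type u} [Field k] {C : Scheme.{u}} {c : C ⟶ Spec (CommRingCat.of k)}
  {ε : SchemeHomOver (𝟙 (Spec (CommRingCat.of k))) c} (𝓒 : CurveModel c ε)
  {R R' : Type u} [CommRing R] [Algebra k R] [CommRing R'] [Algebra k R'] (f : R →ₐ[k] R')

instance (M : (Limits.pullback c (specTo k R)).Modules) :
    Module Γ(Limits.pullback c (specTo k R), 𝓒.WA R) (𝓒.SecA M) :=
  inferInstanceAs (Module Γ(Limits.pullback c (specTo k R), 𝓒.WA R) Γ(M, 𝓒.WA R))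

instance (M : (Limits.pullback c (specTo k R)).Modules) :
    Module Γ(Limits.pullback c (specTo k R), 𝓒.WB R) (𝓒.SecB M) :=
  inferInstanceAs (Module Γ(Limits.pullback c (specTo k R), 𝓒.WB R) Γ(M, 𝓒.WB R))

instance (M : (Limits.pullback c (specTo k R)).Modules) :
    Module Γ(Limits.pullback c (specTo k R), 𝓒.WW R) (𝓒.SecW M) :=
  inferInstanceAs (Module Γ(Limits.pullback c (specTo k R), 𝓒.WW R) Γ(M, 𝓒.WW R))

/-- The triple of the pulled back sheaf is the pulled back triple. -/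
def CurveModel.toTriPullback (M : (Limits.pullback c (specTo k R)).Modules)
    (hM : Scheme.Modules.IsInvertible M) :
    TwoChart.Tri.Pullback f (𝓒.toTri M hM)
      (𝓒.toTri ((Scheme.Modules.pullback (baseChangeSnd c (AffineChart.baseMap f))).obj M)
        (hM.pullback _)) :=
  let bc := baseChangeSnd c (AffineChart.baseMap f)
  let hA : bc ⁻¹ᵁ 𝓒.WA R = 𝓒.WA R' := 𝓒.chartA.preimage_W f
  let hB : bc ⁻¹ᵁ 𝓒.WB R = 𝓒.WB R' := 𝓒.chartB.preimage_W f
  let hW : bc ⁻¹ᵁ 𝓒.WW R = 𝓒.WW R' := 𝓒.chartW.preimage_W f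
  { gA :=
      { toFun := fun m ↦ pullSecTo bc M hA.ge m
        map_add' := fun m m' ↦ map_add (pullSecTo bc M hA.ge) _ _
        map_smul' := fun a m ↦ by
          change pullSecTo bc M hA.ge (𝓒.φA R a • (show Γ(M, 𝓒.WA R) from m)) =
            𝓒.φA R' (TwoChart.baseHom f 𝓒.X.A a) • pullSecTo bc M hA.ge (show Γ(M, 𝓒.WA R) from m)
          rw [LinearMap.map_smulₛₗ]
          congr 1
          exact AffineChart.app_φ bc _ (𝓒.chartA.j_baseChange f) hA.ge a }
    gB :=
      { toFun := fun m ↦ pullSecTo bc M hB.ge m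
        map_add' := fun m m' ↦ map_add (pullSecTo bc M hB.ge) _ _
        map_smul' := fun a m ↦ by
          change pullSecTo bc M hB.ge (𝓒.φB R a • (show Γ(M, 𝓒.WB R) from m)) =
            𝓒.φB R' (TwoChart.baseHom f 𝓒.X.B a) • pullSecTo bc M hB.ge (show Γ(M, 𝓒.WB R) from m)
          rw [LinearMap.map_smulₛₗ]
          congr 1
          exact AffineChart.app_φ bc _ (𝓒.chartB.j_baseChange f) hB.ge a }
    gW :=
      { toFun := fun m ↦ pullSecTo bc M hW.ge m
        map_add' := fun m m' ↦ map_add (pullSecTo bc M hW.ge) _ _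
        map_smul' := fun a m ↦ by
          change pullSecTo bc M hW.ge (𝓒.φW R a • (show Γ(M, 𝓒.WW R) from m)) =
            𝓒.φW R' (TwoChart.baseHom f 𝓒.X.W a) • pullSecTo bc M hW.ge (show Γ(M, 𝓒.WW R) from m)
          rw [LinearMap.map_smulₛₗ]
          congr 1
          exact AffineChart.app_φ bc _ (𝓒.chartW.j_baseChange f) hW.ge a }
    commA := fun m ↦ (mres_pullSecTo bc M hA.ge (𝓒.WW_le_WA R) hW.ge (𝓒.WW_le_WA R') m).symm
    commB := fun m ↦ (mres_pullSecTo bc M hB.ge (𝓒.WW_le_WB R) hW.ge (𝓒.WW_le_WB R') m).symm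
    univA := isScalarExtension_transport _ _ (𝓒.φA R) (𝓒.φA R')
      (fun a ↦ (AffineChart.app_φ bc _ (𝓒.chartA.j_baseChange f) hA.ge a).symm)
      (P := 𝓒.SecA M) (Q := 𝓒.SecA ((Scheme.Modules.pullback bc).obj M))
      (fun _ _ ↦ rfl) (fun _ _ ↦ rfl) (pullSecTo bc M hA.ge) _ (fun _ ↦ rfl)
      (isScalarExtension_pullSecTo bc M hM hA (𝓒.chartA.isAffineOpen_W R) (𝓒.chartA.isAffineOpen_W R'))
    univB := isScalarExtension_transport _ _ (𝓒.φB R) (𝓒.φB R')
      (fun a ↦ (AffineChart.app_φ bc _ (𝓒.chartB.j_baseChange f) hB.ge a).symm)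
      (P := 𝓒.SecB M) (Q := 𝓒.SecB ((Scheme.Modules.pullback bc).obj M))
      (fun _ _ ↦ rfl) (fun _ _ ↦ rfl) (pullSecTo bc M hB.ge) _ (fun _ ↦ rfl)
      (isScalarExtension_pullSecTo bc M hM hB (𝓒.chartB.isAffineOpen_W R) (𝓒.chartB.isAffineOpen_W R'))
    univW := isScalarExtension_transport _ _ (𝓒.φW R) (𝓒.φW R')
      (fun a ↦ (AffineChart.app_φ bc _ (𝓒.chartW.j_baseChange f) hW.ge a).symm)
      (P := 𝓒.SecW M) (Q := 𝓒.SecW ((Scheme.Modules.pullback bc).obj M))
      (fun _ _ ↦ rfl) (fun _ _ ↦ rfl) (pullSecTo bc M hW.ge) _ (fun _ ↦ rfl)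
      (isScalarExtension_pullSecTo bc M hM hW (𝓒.chartW.isAffineOpen_W R) (𝓒.chartW.isAffineOpen_W R')) }

end

end Fermat.Agent.Picard
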