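/-
From triples to invertible sheaves on `C × Spec R`.
-/
import Fermat.Agent.Picard.Bridge.Base
import Fermat.Agent.Picard.Modules.Tilde

set_option autoImplicit false

universe u

open CategoryTheory CategoryTheory.Limits AlgebraicGeometry TopologicalSpace Opposite NeronModelInfra
  AlgebraicGeometry.RelPicard
open scoped TensorProduct

namespace Fermat.Agent.Picard

noncomputable section

section General

/-- `P^~` -/
abbrev tl (S : Type u) [CommRing S] (P : Type u) [AddCommGroup P] [Module S P] :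
    (Spec (CommRingCat.of S)).Modules :=
  tilde (R := CommRingCat.of S) (ModuleCat.of S P)

variable {S T : CommRingCat.{u}} (φ : S ⟶ T) {P : ModuleCat.{u} S} {Q : ModuleCat.{u} T}
  (f : P →ₛₗ[φ.hom] Q)

lemma smul_pushforward_top (N : (Spec T).Modules) (s : S)
    (x : Γ((Scheme.Modules.pushforward (Spec.map φ)).obj N, ⊤)) :
    s • x = (show Γ((Scheme.Modules.pushforward (Spec.map φ)).obj N, ⊤) from
      φ.hom s • (show Γ(N, Spec.map φ ⁻¹ᵁ ⊤) from x)) := by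
  rw [Scheme.Modules.smul_Spec_def]
  change ((Spec.map φ).app ⊤).hom (ores (Spec S) le_top ((Scheme.ΓSpecIso S).inv.hom s)) •
      (show Γ(N, Spec.map φ ⁻¹ᵁ ⊤) from x) =
    (ores (Spec T) (le_top : Spec.map φ ⁻¹ᵁ ⊤ ≤ ⊤) ((Scheme.ΓSpecIso T).inv.hom (φ.hom s))) •
      (show Γ(N, Spec.map φ ⁻¹ᵁ ⊤) from x)
  congr 1
  rw [ores_self]
  have e := congrArg (fun t ↦ t.hom s) (Scheme.ΓSpecIso_inv_naturality φ)
  simp only [CommRingCat.hom_comp, RingHom.comp_apply] at e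
  exact e.symm.trans (ores_self _ _).symm

/-- The linear map behind `tlMap`. -/
def tlGamma : P ⟶ (modulesSpecToSheaf.obj
    ((Scheme.Modules.pushforward (Spec.map φ)).obj (tilde Q))).presheaf.obj (op ⊤) :=
  ModuleCat.ofHom
    (Y := (modulesSpecToSheaf.obj
      ((Scheme.Modules.pushforward (Spec.map φ)).obj (tilde Q))).presheaf.obj (op ⊤))
    { toFun := fun p ↦ (show Γ((Scheme.Modules.pushforward (Spec.map φ)).obj (tilde Q), ⊤) from
        tsec Q (Spec.map φ ⁻¹ᵁ ⊤) (f p))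
      map_add' := fun p p' ↦ by
        rw [map_add, tsec_add]
        rfl
      map_smul' := fun s p ↦ by
        rw [f.map_smulₛₗ, tsec_smul]
        exact (smul_pushforward_top φ (tilde Q) s _).symm }

/-- A semilinear map gives a morphism to the pushforward. -/
def tlMap : tilde P ⟶ (Scheme.Modules.pushforward (Spec.map φ)).obj (tilde Q) :=
  tilde.map (tlGamma φ f) ≫ Scheme.Modules.fromTildeΓ _

lemma tlMap_tsec (U : (Spec S).Opens) (p : P) :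
    (tlMap φ f).app U (tsec P U p) = tsec Q (Spec.map φ ⁻¹ᵁ U) (f p) := by
  have h : (tlMap φ f).app ⊤ (tsec P ⊤ p) = tsec Q (Spec.map φ ⁻¹ᵁ ⊤) (f p) := by
    rw [tlMap, Scheme.Modules.Hom.comp_app, ConcreteCategory.comp_apply]
    have e1 := CategoryTheory.congr_fun (tilde.toOpen_map_app (tlGamma φ f) ⊤) p
    have e2 := CategoryTheory.congr_fun (Scheme.Modules.toOpen_fromTildeΓ_app
      ((Scheme.Modules.pushforward (Spec.map φ)).obj (tilde Q)) ⊤) ((tlGamma φ f).hom p)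
    refine (congrArg _ e1).trans ?_
    refine e2.trans ?_
    exact mres_self (M := (Scheme.Modules.pushforward (Spec.map φ)).obj (tilde Q)) (U := ⊤) le_top _
  rw [← mres_tsec P (le_top : U ≤ ⊤) p, app_mres, h]
  exact mres_tsec Q _ (f p)

end General

lemma isFrame_pushforward {X Y : Scheme.{u}} (j : Y ⟶ X) [IsOpenImmersion j] (N : Y.Modules)
    {U : X.Opens} (hU : U ≤ j.opensRange) (s : Γ(N, j ⁻¹ᵁ U)) (hs : IsFrame N s) :
    IsFrame ((Scheme.Modules.pushforward j).obj N) (show Γ((Scheme.Modules.pushforward j).obj N, U)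
      from s) := fun V h ↦ by
  have : IsIso (j.app V) := j.isIso_app V (h.trans hU)
  exact (hs (j ⁻¹ᵁ V) (j.preimage_mono h)).comp (ConcreteCategory.bijective_of_isIso (j.app V))

lemma bijective_mres_of_preimage_eq {X Y : Scheme.{u}} (j : Y ⟶ X) (N : Y.Modules) {U V : X.Opens}
    (h : V ≤ U) (e : j ⁻¹ᵁ U ≤ j ⁻¹ᵁ V) :
    Function.Bijective (mres ((Scheme.Modules.pushforward j).obj N) h) :=
  ⟨Function.LeftInverse.injective (g := mres N e) fun m ↦ by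
      change mres N e (mres N (j.preimage_mono h) (show Γ(N, j ⁻¹ᵁ U) from m)) =
        (show Γ(N, j ⁻¹ᵁ U) from m)
      exact (mres_mres _ _ _).trans (mres_self _ _),
    Function.RightInverse.surjective (g := mres N e) fun m ↦ by
      change mres N (j.preimage_mono h) (mres N e (show Γ(N, j ⁻¹ᵁ V) from m)) =
        (show Γ(N, j ⁻¹ᵁ V) from m)
      exact (mres_mres _ _ _).trans (mres_self _ _)⟩

/-- A morphism sending frames to frames over `W` is bijective on sections inside `W`. -/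
lemma bijective_app_of_frames {X : Scheme.{u}} {M N : X.Modules} (φ : M ⟶ N) {W : X.Opens}
    {ι : Type*} (U : ι → X.Opens) (hU : W ≤ ⨆ i, U i) {s : ∀ i, Γ(M, U i)}
    (hs : ∀ i, IsFrame M (s i)) (ht : ∀ i, IsFrame N (φ.app (U i) (s i))) {V : X.Opens}
    (hV : V ≤ W) : Function.Bijective (φ.app V) := by
  have hc : V ≤ ⨆ i, V ⊓ U i := by rw [← inf_iSup_eq]; exact le_inf le_rfl (hV.trans hU)
  have hloc : ∀ i (Z : X.Opens) (_ : Z ≤ U i), Function.Bijective (φ.app Z) := by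
    intro i Z hZ
    have e : (fun r : Γ(X, Z) ↦ r • mres N hZ (φ.app (U i) (s i))) =
        φ.app Z ∘ fun r : Γ(X, Z) ↦ r • mres M hZ (s i) := by
      funext r; simp [Function.comp, φ.app_smul, app_mres]
    exact (Function.Bijective.of_comp_iff _ (hs i Z hZ)).1 (e ▸ ht i Z hZ)
  constructor
  · intro m m' e
    refine mres_ext (fun i ↦ V ⊓ U i) (fun i ↦ inf_le_left) hc fun i ↦ ?_
    refine (hloc i _ inf_le_right).1 ?_
    rw [app_mres, app_mres, e]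
  · intro n
    choose m hm using fun i ↦ (hloc i (V ⊓ U i) inf_le_right).2 (mres N inf_le_left n)
    obtain ⟨m', hm', -⟩ := mres_glue (M := M) (fun i ↦ V ⊓ U i) (fun _ ↦ inf_le_left) hc m
      fun i j ↦ (hloc i _ (inf_le_left.trans inf_le_right)).1 (by
        rw [app_mres, app_mres, hm, hm, mres_mres, mres_mres])
    exact ⟨m', mres_ext (fun i ↦ V ⊓ U i) (fun i ↦ inf_le_left) hc fun i ↦ by
      rw [← app_mres, hm', hm]⟩

/-- The equaliser of two morphisms to a common sheaf. -/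
def eqLoc {X : Scheme.{u}} {A B T : X.Modules} (α : A ⟶ T) (β : B ⟶ T) (V : X.Opens) :
    Submodule Γ(X, V) (Γ(A, V) × Γ(B, V)) where
  carrier := {p | α.app V p.1 = β.app V p.2}
  add_mem' {p q} hp hq := by
    change α.app V (p.1 + q.1) = β.app V (p.2 + q.2)
    rw [map_add, map_add, hp, hq]
  zero_mem' := by
    change α.app V 0 = β.app V 0
    rw [map_zero, map_zero]
  smul_mem' r p hp := by
    change α.app V (r • p.1) = β.app V (r • p.2)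
    rw [α.app_smul, β.app_smul, hp]

section EqLoc

variable {X : Scheme.{u}} {A B T : X.Modules} (α : A ⟶ T) (β : B ⟶ T)

/-- Restriction for the equaliser. -/
def eqRes {V W : X.Opens} (h : W ≤ V) : eqLoc α β V →+ eqLoc α β W where
  toFun p := ⟨(mres A h p.1.1, mres B h p.1.2), by
    change α.app W (mres A h p.1.1) = β.app W (mres B h p.1.2)
    rw [app_mres, app_mres, show α.app V p.1.1 = β.app V p.1.2 from p.2]⟩
  map_zero' := by ext <;> exact mres_zero h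
  map_add' p q := by ext <;> exact mres_add h _ _

lemma eqRes_self {V : X.Opens} (h : V ≤ V) (p : eqLoc α β V) : eqRes α β h p = p := by
  ext <;> exact mres_self h _

lemma eqRes_eqRes {V W Z : X.Opens} (h : W ≤ V) (h' : Z ≤ W) (p : eqLoc α β V) :
    eqRes α β h' (eqRes α β h p) = eqRes α β (h'.trans h) p := by
  ext <;> exact mres_mres h h' _

lemma eqRes_smul {V W : X.Opens} (h : W ≤ V) (r : Γ(X, V)) (p : eqLoc α β V) :
    eqRes α β h (r • p) = ores X h r • eqRes α β h p := by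
  ext <;> exact mres_smul h r _

/-- the abelian presheaf -/
def eqPresheaf : TopCat.Presheaf Ab.{u} X where
  obj V := AddCommGrpCat.of (eqLoc α β V.unop)
  map f := AddCommGrpCat.ofHom (eqRes α β f.unop.le)
  map_id V := by
    refine AddCommGrpCat.hom_ext (AddMonoidHom.ext fun (p : eqLoc α β V.unop) ↦ ?_)
    exact eqRes_self α β le_rfl p
  map_comp {V W Z} f g := by
    refine AddCommGrpCat.hom_ext (AddMonoidHom.ext fun (p : eqLoc α β V.unop) ↦ ?_)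
    exact (eqRes_eqRes α β f.unop.le g.unop.le p).symm

lemma eqPresheaf_isSheaf : (eqPresheaf α β).IsSheaf := by
  rw [TopCat.Presheaf.isSheaf_iff_isSheafUniqueGluing]
  intro κ V sf hsf
  obtain ⟨a, ha, hau⟩ := mres_glue (M := A) V (le_iSup V) le_rfl
    (fun i ↦ (sf i : eqLoc α β (V i)).1.1) fun i j ↦
      congrArg (fun t : eqLoc α β (V i ⊓ V j) ↦ t.1.1) (hsf i j)
  obtain ⟨b, hb, hbu⟩ := mres_glue (M := B) V (le_iSup V) le_rfl
    (fun i ↦ (sf i : eqLoc α β (V i)).1.2) fun i j ↦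
      congrArg (fun t : eqLoc α β (V i ⊓ V j) ↦ t.1.2) (hsf i j)
  refine ⟨(⟨(a, b), ?_⟩ : eqLoc α β (iSup V)), fun i ↦ Subtype.ext (Prod.ext (ha i) (hb i)),
    fun p hp ↦ Subtype.ext (Prod.ext (hau _ fun i ↦ congrArg (fun t : eqLoc α β (V i) ↦ t.1.1) (hp i))
      (hbu _ fun i ↦ congrArg (fun t : eqLoc α β (V i) ↦ t.1.2) (hp i)))⟩
  refine mres_ext (M := T) V (le_iSup V) le_rfl fun i ↦ ?_
  rw [← app_mres, ← app_mres, ha, hb]
  exact (sf i : eqLoc α β (V i)).2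

instance (V : X.Opensᵒᵖ) : Module (X.ringCatSheaf.obj.obj V) (eqLoc α β V.unop) :=
  inferInstanceAs (Module Γ(X, V.unop) (eqLoc α β V.unop))

/-- The fibre product sheaf. -/
def fibreProd : X.Modules where
  val :=
    { obj := fun V ↦ ModuleCat.of (X.ringCatSheaf.obj.obj V) (eqLoc α β V.unop)
      map := fun {V W} f ↦ ModuleCat.ofHom
        (Y := (ModuleCat.restrictScalars (X.ringCatSheaf.obj.map f).hom).obj
          (ModuleCat.of (X.ringCatSheaf.obj.obj W) (eqLoc α β W.unop)))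
        { toFun := eqRes α β f.unop.le
          map_add' := map_add _
          map_smul' := fun r p ↦ eqRes_smul α β f.unop.le r p }
      map_id := fun V ↦ by
        ext (p : eqLoc α β V.unop)
        exact eqRes_self α β le_rfl p
      map_comp := fun {V W Z} f g ↦ by
        ext (p : eqLoc α β V.unop)
        exact (eqRes_eqRes α β f.unop.le g.unop.le p).symm }
  isSheaf := eqPresheaf_isSheaf α β

/-- first projection -/
def fpFst : fibreProd α β ⟶ A :=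
  ⟨PresheafOfModules.homMk
    { app := fun V ↦ AddCommGrpCat.ofHom
        (AddMonoidHom.mk' (fun p : eqLoc α β V.unop ↦ p.1.1) fun _ _ ↦ rfl)
      naturality := fun V W f ↦ rfl }
    fun V r p ↦ rfl⟩

/-- second projection -/
def fpSnd : fibreProd α β ⟶ B :=
  ⟨PresheafOfModules.homMk
    { app := fun V ↦ AddCommGrpCat.ofHom
        (AddMonoidHom.mk' (fun p : eqLoc α β V.unop ↦ p.1.2) fun _ _ ↦ rfl)
      naturality := fun V W f ↦ rfl }
    fun V r p ↦ rfl⟩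

lemma fp_comm (V : X.Opens) (p : Γ(fibreProd α β, V)) :
    α.app V ((fpFst α β).app V p) = β.app V ((fpSnd α β).app V p) :=
  (p : eqLoc α β V).2

lemma bijective_fpFst {V : X.Opens} (h : Function.Bijective (β.app V)) :
    Function.Bijective ((fpFst α β).app V) := by
  refine ⟨fun p q e ↦ ?_, fun a ↦ ?_⟩
  · have e2 : (fpSnd α β).app V p = (fpSnd α β).app V q := h.1 (by
      rw [← fp_comm, ← fp_comm, e])
    exact Subtype.ext (Prod.ext e e2)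
  · obtain ⟨b, hb⟩ := h.2 (α.app V a)
    exact ⟨(⟨(a, b), hb.symm⟩ : eqLoc α β V), rfl⟩

lemma bijective_fpSnd {V : X.Opens} (h : Function.Bijective (α.app V)) :
    Function.Bijective ((fpSnd α β).app V) := by
  refine ⟨fun p q e ↦ ?_, fun b ↦ ?_⟩
  · have e2 : (fpFst α β).app V p = (fpFst α β).app V q := h.1 (by
      rw [fp_comm, fp_comm, e])
    exact Subtype.ext (Prod.ext e2 e)
  · obtain ⟨a, ha⟩ := h.2 (β.app V b)
    exact ⟨(⟨(a, b), ha⟩ : eqLoc α β V), rfl⟩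

end EqLoc

section Side

variable {k : Type u} [Field k] {C : Scheme.{u}} {c : C ⟶ Spec (CommRingCat.of k)}
  (Q Q' : AffineChart c) {R : Type u} [CommRing R] [Algebra k R]
  (φ : R ⊗[k] Q.S →+* R ⊗[k] Q'.S) (hφ : Spec.map (CommRingCat.ofHom φ) ≫ Q.j R = Q'.j R)
  {P : Type u} [AddCommGroup P] [Module (R ⊗[k] Q.S) P]
  {P' : Type u} [AddCommGroup P'] [Module (R ⊗[k] Q'.S) P'] (f : P →ₛₗ[φ] P')

/-- the sheaf of a module on a chart, pushed to the product -/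
abbrev sideSheaf (Q : AffineChart c) (P : Type u) [AddCommGroup P] [Module (R ⊗[k] Q.S) P] :
    (Limits.pullback c (specTo k R)).Modules :=
  (Scheme.Modules.pushforward (Q.j R)).obj (tl (R ⊗[k] Q.S) P)

/-- the restriction morphism between two sides -/
def sideMap : sideSheaf (R := R) Q P ⟶ sideSheaf (R := R) Q' P' :=
  (Scheme.Modules.pushforward (Q.j R)).map
      (tlMap (CommRingCat.ofHom φ) (P := ModuleCat.of _ P) (Q := ModuleCat.of _ P') f) ≫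
    (Scheme.Modules.pushforwardComp (Spec.map (CommRingCat.ofHom φ)) (Q.j R)).hom.app _ ≫
    (Scheme.Modules.pushforwardCongr hφ).hom.app _

lemma sideMap_tsec (V : (Limits.pullback c (specTo k R)).Opens) (p : P) :
    (sideMap Q Q' φ hφ f).app V
      (show Γ(sideSheaf (R := R) Q P, V) from
        tsec (S := CommRingCat.of (R ⊗[k] Q.S)) (ModuleCat.of _ P) (Q.j R ⁻¹ᵁ V) p) =
      (show Γ(sideSheaf (R := R) Q' P', V) from
        tsec (S := CommRingCat.of (R ⊗[k] Q'.S)) (ModuleCat.of _ P') (Q'.j R ⁻¹ᵁ V) (f p)) := by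
  rw [sideMap, Scheme.Modules.Hom.comp_app, Scheme.Modules.Hom.comp_app, ConcreteCategory.comp_apply,
    ConcreteCategory.comp_apply, Scheme.Modules.pushforwardCongr_hom_app_app,
    Scheme.Modules.pushforwardComp_hom_app_app, Scheme.Modules.pushforward_map_app]
  refine (congrArg ((tl (R ⊗[k] Q'.S) P').presheaf.map _) (tlMap_tsec (CommRingCat.ofHom φ)
    (P := ModuleCat.of _ P) (Q := ModuleCat.of _ P') f (Q.j R ⁻¹ᵁ V) p)).trans ?_
  exact mres_tsec (S := CommRingCat.of (R ⊗[k] Q'.S)) (ModuleCat.of _ P')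
    (show Q'.j R ⁻¹ᵁ V ≤ Spec.map (CommRingCat.ofHom φ) ⁻¹ᵁ (Q.j R ⁻¹ᵁ V) by
      rw [← Scheme.Hom.comp_preimage, hφ]) (f p)

lemma isFrame_side [Module.Invertible (R ⊗[k] Q.S) P] (a : R ⊗[k] Q.S) (p : P)
    (hp : ∀ q : P, ∃ (n : ℕ) (r : R ⊗[k] Q.S), a ^ n • q = r • p)
    {V : (Limits.pullback c (specTo k R)).Opens}
    (hV : Q.j R ⁻¹ᵁ V = sbo (S := CommRingCat.of (R ⊗[k] Q.S)) a) (hle : V ≤ Q.W R) :
    IsFrame (sideSheaf (R := R) Q P) (show Γ(sideSheaf (R := R) Q P, V) from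
      tsec (S := CommRingCat.of (R ⊗[k] Q.S)) (ModuleCat.of _ P) (Q.j R ⁻¹ᵁ V) p) := by
  refine isFrame_pushforward (Q.j R) _ (hle.trans (Q.j R).image_top_eq_opensRange.le) _ ?_
  rw [hV]
  exact isFrame_tsec (S := CommRingCat.of (R ⊗[k] Q.S)) (ModuleCat.of _ P) a p hp

include hφ in
lemma bijective_sideMap [Module.Invertible (R ⊗[k] Q.S) P] [Module.Invertible (R ⊗[k] Q'.S) P']
    (z : R ⊗[k] Q.S) (hrange : Q'.W R = (Limits.pullback c (specTo k R)).basicOpen (Q.φ R z))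
    (hsurj : ∀ w : P', ∃ (n : ℕ) (m : P), φ z ^ n • w = f m)
    {V : (Limits.pullback c (specTo k R)).Opens}
    (hVW : V ≤ Q'.W R) :
    Function.Bijective ((sideMap Q Q' φ hφ f).app V) := by
  obtain ⟨ι, _, a, p, hspan, hp⟩ := exists_generators (S := R ⊗[k] Q.S) P
  let U : ι → (Limits.pullback c (specTo k R)).Opens := fun i ↦
    Q.j R ''ᵁ sbo (S := CommRingCat.of (R ⊗[k] Q.S)) (z * a i)
  have hUQ : ∀ i, U i ≤ Q.W R := fun i ↦ (Q.j R).image_mono le_top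
  have hpre : ∀ i, Q.j R ⁻¹ᵁ U i = sbo (S := CommRingCat.of (R ⊗[k] Q.S)) (z * a i) := fun i ↦
    (Q.j R).preimage_image_eq _
  have hcov : Q'.W R ≤ ⨆ i, U i := by
    intro x hx
    rw [hrange, Q.basicOpen_φ R z] at hx
    obtain ⟨y, hy, rfl⟩ := hx
    have htop : (⨆ i, sbo (S := CommRingCat.of (R ⊗[k] Q.S)) (a i)) = ⊤ :=
      PrimeSpectrum.iSup_basicOpen_eq_top_iff.2 hspan
    obtain ⟨i, hi⟩ := Opens.mem_iSup.1 (htop.symm ▸ Opens.mem_top y :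
      y ∈ ⨆ i, sbo (S := CommRingCat.of (R ⊗[k] Q.S)) (a i))
    refine Opens.mem_iSup.2 ⟨i, y, ?_, rfl⟩
    change y ∈ PrimeSpectrum.basicOpen (z * a i)
    rw [PrimeSpectrum.basicOpen_mul]
    exact ⟨hy, hi⟩
  refine bijective_app_of_frames (W := Q'.W R) _ U hcov
    (s := fun i ↦ (show Γ(sideSheaf (R := R) Q P, U i) from
      tsec (S := CommRingCat.of (R ⊗[k] Q.S)) (ModuleCat.of _ P) (Q.j R ⁻¹ᵁ U i) (p i)))
    (fun i ↦ isFrame_side Q (z * a i) (p i) (fun q ↦ ?_) (hpre i) (hUQ i)) (fun i ↦ ?_) hVW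
  · obtain ⟨n, r, hr⟩ := hp i q
    exact ⟨n, z ^ n * r, by rw [mul_pow, mul_smul, hr, mul_smul]⟩
  rw [sideMap_tsec]
  refine isFrame_side Q' (φ (z * a i)) (f (p i)) (fun w ↦ ?_) ?_ ?_
  · obtain ⟨n, m, hm⟩ := hsurj w
    obtain ⟨l, r, hr⟩ := hp i m
    refine ⟨n + l, φ (a i) ^ n * φ z ^ l * φ r, ?_⟩
    calc φ (z * a i) ^ (n + l) • w = (φ (a i) ^ n * φ z ^ l * φ (a i) ^ l) • φ z ^ n • w := by
          rw [← mul_smul, map_mul, mul_pow]; congr 1; ring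
      _ = (φ (a i) ^ n * φ z ^ l) • f (a i ^ l • m) := by
          rw [hm, mul_smul, f.map_smulₛₗ, map_pow]
      _ = _ := by rw [hr, f.map_smulₛₗ, ← mul_smul]
  · rw [← hφ, Scheme.Hom.comp_preimage, hpre]
    exact PrimeSpectrum.comap_basicOpen _ _
  · intro x hx
    rw [hrange, Q.basicOpen_φ R z]
    obtain ⟨y, hy, rfl⟩ := hx
    refine ⟨y, ?_, rfl⟩
    change y ∈ PrimeSpectrum.basicOpen (z * a i) at hy
    rw [PrimeSpectrum.basicOpen_mul] at hy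
    exact hy.1

lemma bijective_tsec_side (Q : AffineChart c) {P : Type u} [AddCommGroup P]
    [Module (R ⊗[k] Q.S) P] :
    Function.Bijective (fun p : P ↦ (show Γ(sideSheaf (R := R) Q P, Q.W R) from
      tsec (S := CommRingCat.of (R ⊗[k] Q.S)) (ModuleCat.of _ P) (Q.j R ⁻¹ᵁ Q.W R) p)) := by
  have key : ∀ U : (Spec (CommRingCat.of (R ⊗[k] Q.S))).Opens, U = ⊤ →
      Function.Bijective (tsec (S := CommRingCat.of (R ⊗[k] Q.S)) (ModuleCat.of _ P) U) := by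
    rintro _ rfl
    exact tsec_top_bijective (S := CommRingCat.of (R ⊗[k] Q.S)) (ModuleCat.of _ P)
  exact key _ ((Q.j R).preimage_image_eq ⊤)

lemma smul_tsec_side (Q : AffineChart c) {P : Type u} [AddCommGroup P] [Module (R ⊗[k] Q.S) P]
    (a : R ⊗[k] Q.S) (p : P) :
    Q.φ R a • (show Γ(sideSheaf (R := R) Q P, Q.W R) from
      tsec (S := CommRingCat.of (R ⊗[k] Q.S)) (ModuleCat.of _ P) (Q.j R ⁻¹ᵁ Q.W R) p) =
    (show Γ(sideSheaf (R := R) Q P, Q.W R) from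
      tsec (S := CommRingCat.of (R ⊗[k] Q.S)) (ModuleCat.of _ P) (Q.j R ⁻¹ᵁ Q.W R) (a • p)) := by
  refine Eq.trans ?_ (tsec_smul (S := CommRingCat.of (R ⊗[k] Q.S)) (ModuleCat.of _ P)
    (Q.j R ⁻¹ᵁ Q.W R) a p).symm
  change ((Q.j R).app (Q.W R)).hom (Q.φ R a) •
      tsec (S := CommRingCat.of (R ⊗[k] Q.S)) (ModuleCat.of _ P) (Q.j R ⁻¹ᵁ Q.W R) p = _
  refine Eq.trans ?_ (Scheme.Modules.smul_Spec_def (R := CommRingCat.of (R ⊗[k] Q.S)) a _).symm
  congr 1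
  have h := Q.appLE_φ R a
  have e : Q.j R ⁻¹ᵁ Q.W R = ⊤ := (Q.j R).preimage_image_eq ⊤
  have key : ∀ (U : (Spec (CommRingCat.of (R ⊗[k] Q.S))).Opens) (_ : U = ⊤) (t : Γ(Spec (CommRingCat.of (R ⊗[k] Q.S)), U))
      (hU : ⊤ ≤ U) (_ : ores _ hU t = (Scheme.ΓSpecIso (CommRingCat.of (R ⊗[k] Q.S))).inv.hom a),
      t = ores _ le_top ((Scheme.ΓSpecIso (CommRingCat.of (R ⊗[k] Q.S))).inv.hom a) := by
    rintro _ rfl t hU ht
    rw [← ht, ores_ores, ores_self]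
  exact key _ e _ (Q.le_preimage_W R) h

end Side

namespace CurveModel

variable {k : Type u} [Field k] {C : Scheme.{u}} {c : C ⟶ Spec (CommRingCat.of k)}
  {ε : SchemeHomOver (𝟙 (Spec (CommRingCat.of k))) c} (𝓒 : CurveModel c ε)
  {R : Type u} [CommRing R] [Algebra k R] (L : 𝓒.X.Tri R)

lemma resA_comp_j : Spec.map (CommRingCat.ofHom (𝓒.X.resA R)) ≫ 𝓒.chartA.j R = 𝓒.chartW.j R :=
  (AffineChart.j_map (Q := 𝓒.chartA) (Q' := 𝓒.chartW) (IsScalarTower.toAlgHom k 𝓒.X.A 𝓒.X.W)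
    rfl R).symm

lemma resB_comp_j : Spec.map (CommRingCat.ofHom (𝓒.X.resB R)) ≫ 𝓒.chartB.j R = 𝓒.chartW.j R :=
  (AffineChart.j_map (Q := 𝓒.chartB) (Q' := 𝓒.chartW) (IsScalarTower.toAlgHom k 𝓒.X.B 𝓒.X.W)
    𝓒.iW_eq_B R).symm

/-- the morphism of the first side to the overlap -/
def ρA : sideSheaf (R := R) 𝓒.chartA L.MA ⟶ sideSheaf (R := R) 𝓒.chartW L.MW :=
  sideMap 𝓒.chartA 𝓒.chartW (𝓒.X.resA R) 𝓒.resA_comp_j L.fA

/-- the morphism of the second side to the overlap -/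
def ρB : sideSheaf (R := R) 𝓒.chartB L.MB ⟶ sideSheaf (R := R) 𝓒.chartW L.MW :=
  sideMap 𝓒.chartB 𝓒.chartW (𝓒.X.resB R) 𝓒.resB_comp_j L.fB

/-- The sheaf of a triple. -/
def ofTri : (Limits.pullback c (specTo k R)).Modules := fibreProd (𝓒.ρA L) (𝓒.ρB L)

lemma bijective_ρA {V : (Limits.pullback c (specTo k R)).Opens} (hV : V ≤ 𝓒.WW R) :
    Function.Bijective ((𝓒.ρA L).app V) :=
  bijective_sideMap 𝓒.chartA 𝓒.chartW (𝓒.X.resA R) 𝓒.resA_comp_j L.fA (1 ⊗ₜ[k] 𝓒.X.x)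
    (𝓒.WW_eq_basicOpen_A R) (fun w ↦ by
      obtain ⟨n, m, hm⟩ := L.surjA w
      refine ⟨n, m, ?_⟩
      rw [show 𝓒.X.resA R (1 ⊗ₜ[k] 𝓒.X.x) = (1 : R) ⊗ₜ[k] algebraMap 𝓒.X.A 𝓒.X.W 𝓒.X.x by
        simp [TwoChart.resA]]
      exact hm) hV

lemma bijective_ρB {V : (Limits.pullback c (specTo k R)).Opens} (hV : V ≤ 𝓒.WW R) :
    Function.Bijective ((𝓒.ρB L).app V) :=
  bijective_sideMap 𝓒.chartB 𝓒.chartW (𝓒.X.resB R) 𝓒.resB_comp_j L.fB (1 ⊗ₜ[k] 𝓒.X.y)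
    (𝓒.WW_eq_basicOpen_B R) (fun w ↦ by
      obtain ⟨n, m, hm⟩ := L.surjB w
      refine ⟨n, m, ?_⟩
      rw [show 𝓒.X.resB R (1 ⊗ₜ[k] 𝓒.X.y) = (1 : R) ⊗ₜ[k] algebraMap 𝓒.X.B 𝓒.X.W 𝓒.X.y by
        simp [TwoChart.resB]]
      exact hm) hV

lemma preimage_W_le (Q : AffineChart c) (Q' : AffineChart c) (R : Type u) [CommRing R]
    [Algebra k R] (V : (Limits.pullback c (specTo k R)).Opens) :
    Q'.j R ⁻¹ᵁ V ≤ Q'.j R ⁻¹ᵁ (V ⊓ Q'.W R) := fun y hy ↦ ⟨hy, y, trivial, rfl⟩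

lemma WA_inf_WB_le : 𝓒.WA R ⊓ 𝓒.WB R ≤ 𝓒.WW R := by
  intro z ⟨hA, hB⟩
  change z ∈ 𝓒.chartA.W R at hA
  change z ∈ 𝓒.chartB.W R at hB
  change z ∈ 𝓒.chartW.W R
  rw [AffineChart.W_eq] at hA hB ⊢
  obtain ⟨a, ha⟩ := hA
  obtain ⟨b, hb⟩ := hB
  obtain ⟨z', hza, hzb⟩ := Scheme.Pullback.exists_preimage_pullback a b (ha.trans hb.symm)
  refine ⟨𝓒.isPullback.isoPullback.inv z', ?_⟩
  rw [← ha, ← hza, ← Scheme.Hom.comp_apply, ← Scheme.Hom.comp_apply]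
  exact congrArg (fun g ↦ g z') (show 𝓒.isPullback.isoPullback.inv ≫ 𝓒.chartW.i =
    pullback.fst 𝓒.iA 𝓒.iB ≫ 𝓒.iA from by
      rw [← Category.assoc, 𝓒.isPullback.isoPullback_inv_fst])

lemma bijective_ρB_A {V : (Limits.pullback c (specTo k R)).Opens} (hV : V ≤ 𝓒.WA R) :
    Function.Bijective ((𝓒.ρB L).app V) := by
  have hW : V ⊓ 𝓒.WW R ≤ 𝓒.WW R := inf_le_right
  have h1 := bijective_mres_of_preimage_eq (𝓒.chartB.j R) (tl (R ⊗[k] 𝓒.chartB.S) L.MB)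
    (inf_le_left : V ⊓ 𝓒.WW R ≤ V) (fun y hy ↦ ⟨hy, 𝓒.WA_inf_WB_le ⟨hV hy, y, trivial, rfl⟩⟩)
  have h2 := bijective_mres_of_preimage_eq (𝓒.chartW.j R) (tl (R ⊗[k] 𝓒.chartW.S) L.MW)
    (inf_le_left : V ⊓ 𝓒.WW R ≤ V) (fun y hy ↦ ⟨hy, y, trivial, rfl⟩)
  refine (Function.Bijective.of_comp_iff' h2 _).1 ?_
  have : mres _ (inf_le_left : V ⊓ 𝓒.WW R ≤ V) ∘ (𝓒.ρB L).app V =
      (𝓒.ρB L).app (V ⊓ 𝓒.WW R) ∘ mres _ inf_le_left := funext fun m ↦ (app_mres _ _ m).symm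
  rw [this]
  exact (𝓒.bijective_ρB L hW).comp h1

lemma bijective_ρA_B {V : (Limits.pullback c (specTo k R)).Opens} (hV : V ≤ 𝓒.WB R) :
    Function.Bijective ((𝓒.ρA L).app V) := by
  have hW : V ⊓ 𝓒.WW R ≤ 𝓒.WW R := inf_le_right
  have h1 := bijective_mres_of_preimage_eq (𝓒.chartA.j R) (tl (R ⊗[k] 𝓒.chartA.S) L.MA)
    (inf_le_left : V ⊓ 𝓒.WW R ≤ V) (fun y hy ↦ ⟨hy, 𝓒.WA_inf_WB_le ⟨⟨y, trivial, rfl⟩, hV hy⟩⟩)
  have h2 := bijective_mres_of_preimage_eq (𝓒.chartW.j R) (tl (R ⊗[k] 𝓒.chartW.S) L.MW)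
    (inf_le_left : V ⊓ 𝓒.WW R ≤ V) (fun y hy ↦ ⟨hy, y, trivial, rfl⟩)
  refine (Function.Bijective.of_comp_iff' h2 _).1 ?_
  have : mres _ (inf_le_left : V ⊓ 𝓒.WW R ≤ V) ∘ (𝓒.ρA L).app V =
      (𝓒.ρA L).app (V ⊓ 𝓒.WW R) ∘ mres _ inf_le_left := funext fun m ↦ (app_mres _ _ m).symm
  rw [this]
  exact (𝓒.bijective_ρA L hW).comp h1

lemma exists_frame_side (Q : AffineChart c) {P : Type u} [AddCommGroup P]
    [Module (R ⊗[k] Q.S) P] [Module.Invertible (R ⊗[k] Q.S) P]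
    {x : ↥(Limits.pullback c (specTo k R))} (hx : x ∈ Q.W R) :
    ∃ (U : (Limits.pullback c (specTo k R)).Opens) (s : Γ(sideSheaf (R := R) Q P, U)),
      U ≤ Q.W R ∧ x ∈ U ∧ IsFrame (sideSheaf (R := R) Q P) s := by
  obtain ⟨ι, _, a, p, hspan, hp⟩ := exists_generators (S := R ⊗[k] Q.S) P
  obtain ⟨y, -, rfl⟩ := hx
  have htop : (⨆ i, sbo (S := CommRingCat.of (R ⊗[k] Q.S)) (a i)) = ⊤ :=
    PrimeSpectrum.iSup_basicOpen_eq_top_iff.2 hspan
  obtain ⟨i, hi⟩ := Opens.mem_iSup.1 (htop.symm ▸ Opens.mem_top y :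
    y ∈ ⨆ i, sbo (S := CommRingCat.of (R ⊗[k] Q.S)) (a i))
  exact ⟨Q.j R ''ᵁ sbo (S := CommRingCat.of (R ⊗[k] Q.S)) (a i), _, (Q.j R).image_mono le_top,
    ⟨y, hi, rfl⟩, isFrame_side Q (a i) (p i) (hp i) ((Q.j R).preimage_image_eq _)
      ((Q.j R).image_mono le_top)⟩

/-- transporting a frame along a morphism bijective on smaller opens -/
lemma exists_frame_of_bijective {Z : Scheme.{u}} {M N : Z.Modules} (φ : M ⟶ N) {U : Z.Opens}
    (hφ : ∀ V ≤ U, Function.Bijective (φ.app V)) {s : Γ(N, U)} (hs : IsFrame N s) :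
    ∃ t : Γ(M, U), IsFrame M t := by
  obtain ⟨t, rfl⟩ := (hφ U le_rfl).2 s
  refine ⟨t, fun V h ↦ ?_⟩
  have e : (fun r : Γ(Z, V) ↦ r • mres N h (φ.app U t)) =
      φ.app V ∘ fun r : Γ(Z, V) ↦ r • mres M h t := by
    funext r; simp [Function.comp, φ.app_smul, app_mres]
  exact (Function.Bijective.of_comp_iff' (hφ V h) _).1 (e ▸ hs V h)

lemma isInvertible_ofTri : Scheme.Modules.IsInvertible (𝓒.ofTri L) := by
  have key : ∀ x, ∃ (U : (Limits.pullback c (specTo k R)).Opens) (t : Γ(𝓒.ofTri L, U)),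
      x ∈ U ∧ IsFrame (𝓒.ofTri L) t := by
    intro x
    have hx : x ∈ 𝓒.WA R ⊔ 𝓒.WB R := (𝓒.WA_sup_WB R).symm ▸ trivial
    rcases hx with hx | hx
    · obtain ⟨U, s, hU, hxU, hs⟩ := exists_frame_side 𝓒.chartA (P := L.MA) hx
      obtain ⟨t, ht⟩ := exists_frame_of_bijective (fpFst (𝓒.ρA L) (𝓒.ρB L))
        (fun V hV ↦ bijective_fpFst _ _ (𝓒.bijective_ρB_A L (hV.trans hU))) hs
      exact ⟨U, t, hxU, ht⟩
    · obtain ⟨U, s, hU, hxU, hs⟩ := exists_frame_side 𝓒.chartB (P := L.MB) hx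
      obtain ⟨t, ht⟩ := exists_frame_of_bijective (fpSnd (𝓒.ρA L) (𝓒.ρB L))
        (fun V hV ↦ bijective_fpSnd _ _ (𝓒.bijective_ρA_B L (hV.trans hU))) hs
      exact ⟨U, t, hxU, ht⟩
  choose U t hxU ht using key
  exact isInvertible_of_frames U (eq_top_iff.2 fun x _ ↦ Opens.mem_iSup.2 ⟨x, hxU x⟩) ht

/-- sections of a side over its chart -/
def sideEquiv (Q : AffineChart c) (P : Type u) [AddCommGroup P] [Module (R ⊗[k] Q.S) P] :
    P ≃+ Γ(sideSheaf (R := R) Q P, Q.W R) :=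
  AddEquiv.ofBijective
    (AddMonoidHom.mk' (fun p ↦ (show Γ(sideSheaf (R := R) Q P, Q.W R) from
      tsec (S := CommRingCat.of (R ⊗[k] Q.S)) (ModuleCat.of _ P) (Q.j R ⁻¹ᵁ Q.W R) p))
      fun p p' ↦ tsec_add (S := CommRingCat.of (R ⊗[k] Q.S)) (ModuleCat.of _ P) _ p p')
    (bijective_tsec_side Q)

lemma sideEquiv_smul (Q : AffineChart c) {P : Type u} [AddCommGroup P] [Module (R ⊗[k] Q.S) P]
    (a : R ⊗[k] Q.S) (p : P) :
    sideEquiv Q P (a • p) = Q.φ R a • sideEquiv (R := R) Q P p :=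
  (smul_tsec_side Q a p).symm

/-- comparison with the module of a side -/
def compareEquiv (Q : AffineChart c) {P : Type u} [AddCommGroup P] [Module (R ⊗[k] Q.S) P]
    {M : (Limits.pullback c (specTo k R)).Modules} (φ : M ⟶ sideSheaf (R := R) Q P)
    (h : Function.Bijective (φ.app (Q.W R))) : Γ(M, Q.W R) ≃+ P :=
  (AddEquiv.ofBijective (φ.app (Q.W R)).hom h).trans (sideEquiv Q P).symm

lemma compareEquiv_eq (Q : AffineChart c) {P : Type u} [AddCommGroup P] [Module (R ⊗[k] Q.S) P]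
    {M : (Limits.pullback c (specTo k R)).Modules} (φ : M ⟶ sideSheaf (R := R) Q P)
    (h : Function.Bijective (φ.app (Q.W R))) (m : Γ(M, Q.W R)) :
    sideEquiv Q P (compareEquiv Q φ h m) = φ.app (Q.W R) m :=
  (sideEquiv Q P).apply_symm_apply _

lemma compareEquiv_smul (Q : AffineChart c) {P : Type u} [AddCommGroup P] [Module (R ⊗[k] Q.S) P]
    {M : (Limits.pullback c (specTo k R)).Modules} (φ : M ⟶ sideSheaf (R := R) Q P)
    (h : Function.Bijective (φ.app (Q.W R))) (a : R ⊗[k] Q.S) (m : Γ(M, Q.W R)) :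
    compareEquiv Q φ h (Q.φ R a • m) = a • compareEquiv Q φ h m := by
  refine (sideEquiv (R := R) Q P).injective ?_
  rw [compareEquiv_eq, sideEquiv_smul, compareEquiv_eq, φ.app_smul]

/-- the first component of the comparison -/
def secAEquiv : 𝓒.SecA (𝓒.ofTri L) ≃ₗ[R ⊗[k] 𝓒.X.A] L.MA :=
  AddEquiv.toLinearEquiv
    (compareEquiv 𝓒.chartA (fpFst (𝓒.ρA L) (𝓒.ρB L))
      (bijective_fpFst _ _ (𝓒.bijective_ρB_A L le_rfl)) : 𝓒.SecA (𝓒.ofTri L) ≃+ L.MA)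
    fun a m ↦ compareEquiv_smul 𝓒.chartA _ _ a m

/-- the second component of the comparison -/
def secBEquiv : 𝓒.SecB (𝓒.ofTri L) ≃ₗ[R ⊗[k] 𝓒.X.B] L.MB :=
  AddEquiv.toLinearEquiv
    (compareEquiv 𝓒.chartB (fpSnd (𝓒.ρA L) (𝓒.ρB L))
      (bijective_fpSnd _ _ (𝓒.bijective_ρA_B L le_rfl)) : 𝓒.SecB (𝓒.ofTri L) ≃+ L.MB)
    fun a m ↦ compareEquiv_smul 𝓒.chartB _ _ a m

lemma bijective_toW : Function.Bijective
    ((fpFst (𝓒.ρA L) (𝓒.ρB L) ≫ 𝓒.ρA L).app (𝓒.WW R)) := by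
  rw [Scheme.Modules.Hom.comp_app]
  exact (𝓒.bijective_ρA L le_rfl).comp (bijective_fpFst _ _ (𝓒.bijective_ρB L le_rfl))

/-- the overlap component of the comparison -/
def secWEquiv : 𝓒.SecW (𝓒.ofTri L) ≃ₗ[R ⊗[k] 𝓒.X.W] L.MW :=
  AddEquiv.toLinearEquiv
    (compareEquiv 𝓒.chartW (fpFst (𝓒.ρA L) (𝓒.ρB L) ≫ 𝓒.ρA L) (𝓒.bijective_toW L) :
      𝓒.SecW (𝓒.ofTri L) ≃+ L.MW)
    fun a m ↦ compareEquiv_smul 𝓒.chartW _ _ a m

lemma commA_aux (m : Γ(fibreProd (𝓒.ρA L) (𝓒.ρB L), 𝓒.WA R)) :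
    compareEquiv 𝓒.chartW (fpFst (𝓒.ρA L) (𝓒.ρB L) ≫ 𝓒.ρA L) (𝓒.bijective_toW L)
        (mres _ (𝓒.WW_le_WA R) m) =
      L.fA (compareEquiv 𝓒.chartA (fpFst (𝓒.ρA L) (𝓒.ρB L))
        (bijective_fpFst _ _ (𝓒.bijective_ρB_A L le_rfl)) m) := by
  refine (sideEquiv (R := R) 𝓒.chartW L.MW).injective ?_
  rw [compareEquiv_eq, app_mres, Scheme.Modules.Hom.comp_app, ConcreteCategory.comp_apply,
    ← compareEquiv_eq 𝓒.chartA (fpFst (𝓒.ρA L) (𝓒.ρB L))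
      (bijective_fpFst _ _ (𝓒.bijective_ρB_A L le_rfl)) m]
  set q := compareEquiv 𝓒.chartA (fpFst (𝓒.ρA L) (𝓒.ρB L))
    (bijective_fpFst _ _ (𝓒.bijective_ρB_A L le_rfl)) m
  refine (congrArg (mres _ _) (sideMap_tsec 𝓒.chartA 𝓒.chartW (𝓒.X.resA R) 𝓒.resA_comp_j L.fA
    (𝓒.WA R) q)).trans ?_
  exact mres_tsec (S := CommRingCat.of (R ⊗[k] 𝓒.chartW.S)) (ModuleCat.of _ L.MW)
    ((𝓒.chartW.j R).preimage_mono (𝓒.WW_le_WA R)) (L.fA q)

lemma commB_aux (m : Γ(fibreProd (𝓒.ρA L) (𝓒.ρB L), 𝓒.WB R)) :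
    compareEquiv 𝓒.chartW (fpFst (𝓒.ρA L) (𝓒.ρB L) ≫ 𝓒.ρA L) (𝓒.bijective_toW L)
        (mres _ (𝓒.WW_le_WB R) m) =
      L.fB (compareEquiv 𝓒.chartB (fpSnd (𝓒.ρA L) (𝓒.ρB L))
        (bijective_fpSnd _ _ (𝓒.bijective_ρA_B L le_rfl)) m) := by
  refine (sideEquiv (R := R) 𝓒.chartW L.MW).injective ?_
  rw [compareEquiv_eq, app_mres, Scheme.Modules.Hom.comp_app, ConcreteCategory.comp_apply, fp_comm,
    ← compareEquiv_eq 𝓒.chartB (fpSnd (𝓒.ρA L) (𝓒.ρB L))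
      (bijective_fpSnd _ _ (𝓒.bijective_ρA_B L le_rfl)) m]
  set q := compareEquiv 𝓒.chartB (fpSnd (𝓒.ρA L) (𝓒.ρB L))
    (bijective_fpSnd _ _ (𝓒.bijective_ρA_B L le_rfl)) m
  refine (congrArg (mres _ _) (sideMap_tsec 𝓒.chartB 𝓒.chartW (𝓒.X.resB R) 𝓒.resB_comp_j L.fB
    (𝓒.WB R) q)).trans ?_
  exact mres_tsec (S := CommRingCat.of (R ⊗[k] 𝓒.chartW.S)) (ModuleCat.of _ L.MW)
    ((𝓒.chartW.j R).preimage_mono (𝓒.WW_le_WB R)) (L.fB q)

/-- The triple of the sheaf of a triple. -/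
def toTri_ofTri : TwoChart.Tri.Equiv (𝓒.toTri (𝓒.ofTri L) (𝓒.isInvertible_ofTri L)) L where
  eA := 𝓒.secAEquiv L
  eB := 𝓒.secBEquiv L
  eW := 𝓒.secWEquiv L
  commA m := 𝓒.commA_aux L m
  commB m := 𝓒.commB_aux L m

end CurveModel

end

end Fermat.Agent.Picard
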