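/-
Morphisms of invertible sheaves from maps of triples.
-/
import Fermat.Agent.Picard.Bridge.FromTri

set_option autoImplicit false

universe u

open CategoryTheory CategoryTheory.Limits AlgebraicGeometry TopologicalSpace Opposite NeronModelInfra
  AlgebraicGeometry.RelPicard
open scoped TensorProduct

namespace Fermat.Agent.Picard

noncomputable section

section Affine

variable {X : Scheme.{u}} {M N : X.Modules} {W : X.Opens}

/-- Restriction of a morphism on an open. -/
def HomOn.restrict {U : X.Opens} (F : HomOn M N U) {V : X.Opens} (h : V ≤ U) : HomOn M N V where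
  app Z hZ := F.app Z (hZ.trans h)
  map_add Z hZ := F.map_add Z _
  map_smul Z hZ := F.map_smul Z _
  map_res Z hZ Y hY m := F.map_res Z _ Y hY m

/-- On an affine open a morphism is determined by the global sections. -/
lemma homOn_ext_affine (hM : Scheme.Modules.IsInvertible M) (hW : IsAffineOpen W)
    (F G : HomOn M N W) (h : ∀ a, F.app W le_rfl a = G.app W le_rfl a) {V : X.Opens} (hV : V ≤ W)
    (m : Γ(M, V)) : F.app V hV m = G.app V hV m := by
  obtain ⟨ι, _, g, s, hc, hs⟩ := exists_basic_frames hM hW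
  have hle : ∀ i, X.basicOpen (g i) ≤ W := fun i ↦ X.basicOpen_le _
  have key : ∀ i, F.app _ (hle i) (s i) = G.app _ (hle i) (s i) := fun i ↦ by
    obtain ⟨n, a, ha⟩ := sec_exists hM hW (g i) (s i)
    have e1 := F.map_res W le_rfl _ (hle i) a
    have e2 := G.map_res W le_rfl _ (hle i) a
    rw [ha, F.map_smul] at e1
    rw [ha, G.map_smul, ← h a] at e2
    exact ((isUnit_ores_basicOpen (g i) le_rfl (hle i)).pow n).smul_left_cancel.1 (e1.trans e2.symm)
  refine mres_ext (M := N) (fun i ↦ V ⊓ X.basicOpen (g i)) (fun i ↦ inf_le_left)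
    (by rw [← inf_iSup_eq, hc]; exact le_inf le_rfl hV) fun i ↦ ?_
  rw [← F.map_res V hV, ← G.map_res V hV]
  exact (hs i).homOn_ext (F.restrict (hle i)) (G.restrict (hle i)) (key i) inf_le_right _

/-- A linear map on global sections extends to a morphism on an affine open. -/
lemma exists_homOn_of_linear (hM : Scheme.Modules.IsInvertible M) (hW : IsAffineOpen W)
    (ψ : Γ(M, W) →ₗ[Γ(X, W)] Γ(N, W)) :
    ∃ F : HomOn M N W, ∀ a, F.app W le_rfl a = ψ a := by
  obtain ⟨ι, _, g, s, hc, hs⟩ := exists_basic_frames hM hW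
  have hle : ∀ i, X.basicOpen (g i) ≤ W := fun i ↦ X.basicOpen_le _
  have hug : ∀ i, IsUnit (ores X (hle i) (g i)) := fun i ↦ isUnit_ores_basicOpen (g i) le_rfl _
  choose n m hm using fun i ↦ sec_exists hM hW (g i) (s i)
  let t : ∀ i, Γ(N, X.basicOpen (g i)) := fun i ↦
    (((hug i).pow (n i)).unit⁻¹ : Γ(X, X.basicOpen (g i))ˣ).val • mres N (hle i) (ψ (m i))
  have ht : ∀ i, ores X (hle i) (g i) ^ n i • t i = mres N (hle i) (ψ (m i)) := fun i ↦ by
    rw [← mul_smul, IsUnit.mul_val_inv, one_smul]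
  have key : ∀ i (a : Γ(M, W)),
      ((hs i).homOn (t i)).app _ le_rfl (mres M (hle i) a) = mres N (hle i) (ψ a) := fun i a ↦ by
    set r' := (hs i).coeff le_rfl (mres M (hle i) a) with hr'
    obtain ⟨q, r, hr⟩ := ring_exists hW (f := g i) rfl (hle i) r'
    have h0 : mres M (hle i) (g i ^ (q + n i) • a - r • m i) = 0 := by
      rw [mres, map_sub, ← mres, ← mres, mres_smul, mres_smul, map_pow, hr, hm i, sub_eq_zero]
      have e := (hs i).coeff_smul le_rfl (mres M (hle i) a)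
      rw [mres_self] at e
      conv_lhs => rw [← e, ← hr']
      rw [← mul_smul, ← mul_smul, pow_add]
      congr 1
      ring
    obtain ⟨K, hK⟩ := sec_sep hM hW (g i) _ h0
    rw [smul_sub, sub_eq_zero] at hK
    have e := congrArg (fun z ↦ mres N (hle i) (ψ z)) hK
    simp only [map_smul, mres_smul, map_pow, hr] at e
    rw [← mul_smul, ← mul_smul, ← pow_add, ← ht i, ← mul_smul] at e
    refine (((hug i).pow (K + (q + n i))).smul_left_cancel).1 (Eq.trans ?_ e.symm)
    change _ • (r' • mres N le_rfl (t i)) = _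
    rw [mres_self, ← mul_smul]
    congr 1
    ring
  -- the value on a smaller open
  have hex : ∀ V (_ : V ≤ W) (a : Γ(M, V)), ∃! b : Γ(N, V), ∀ i,
      mres N (inf_le_left : V ⊓ X.basicOpen (g i) ≤ V) b =
        ((hs i).homOn (t i)).app _ inf_le_right (mres M inf_le_left a) := by
    intro V hV a
    refine mres_glue (M := N) (fun i ↦ V ⊓ X.basicOpen (g i)) (fun i ↦ inf_le_left)
      (by rw [← inf_iSup_eq, hc]; exact le_inf le_rfl hV) _ fun i j ↦ ?_
    rw [← ((hs i).homOn (t i)).map_res _ inf_le_right _ inf_le_left,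
      ← ((hs j).homOn (t j)).map_res _ inf_le_right _ inf_le_right, mres_mres, mres_mres]
    have hij : X.basicOpen (g i) ⊓ X.basicOpen (g j) ≤ W := inf_le_left.trans (hle i)
    have ha : IsAffineOpen (X.basicOpen (g i) ⊓ X.basicOpen (g j)) := by
      rw [← X.basicOpen_mul]; exact hW.basicOpen _
    -- both agree with `ψ` on restrictions of global sections
    have hagree : ∀ i (E : X.Opens) (hE : E ≤ X.basicOpen (g i)) (b : Γ(M, W)),
        ((hs i).homOn (t i)).app E hE (mres M (hE.trans (hle i)) b) =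
          mres N (hE.trans (hle i)) (ψ b) := fun i E hE b ↦ by
      have e1 := ((hs i).homOn (t i)).map_res _ le_rfl E hE (mres M (hle i) b)
      rw [mres_mres, key i b, mres_mres] at e1
      exact e1
    have hsi : ((hs i).homOn (t i)).app _ inf_le_left
        (mres M (inf_le_left : X.basicOpen (g i) ⊓ X.basicOpen (g j) ≤ _) (s i)) =
        ((hs j).homOn (t j)).app _ inf_le_right (mres M inf_le_left (s i)) := by
      have hu := ((hug i).pow (n i)).map
        (ores X (inf_le_left : X.basicOpen (g i) ⊓ X.basicOpen (g j) ≤ X.basicOpen (g i)))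
      refine hu.smul_left_cancel.1 ?_
      rw [← HomOn.map_smul, ← HomOn.map_smul, ← mres_smul, ← hm i, mres_mres,
        hagree i _ inf_le_left (m i), hagree j _ inf_le_right (m i)]
    have hsame := ((hs i).mono (inf_le_left : X.basicOpen (g i) ⊓ X.basicOpen (g j) ≤ _)).homOn_ext
      (((hs i).homOn (t i)).restrict inf_le_left) (((hs j).homOn (t j)).restrict inf_le_right) hsi
      (V := (V ⊓ X.basicOpen (g i)) ⊓ (V ⊓ X.basicOpen (g j)))
      (le_inf (inf_le_left.trans inf_le_right) (inf_le_right.trans inf_le_right))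
      (mres M (inf_le_left.trans inf_le_left) a)
    exact hsame
  choose b hb hbu using hex
  refine ⟨{ app := b, map_add := ?_, map_smul := ?_, map_res := ?_ }, fun a ↦ ?_⟩
  · exact fun V hV a a' ↦ (hbu V hV _ _ fun i ↦ by
      rw [mres_add, hb, hb, ← HomOn.map_add, ← mres_add]).symm
  · exact fun V hV r a ↦ (hbu V hV _ _ fun i ↦ by
      rw [mres_smul, hb, ← HomOn.map_smul, ← mres_smul]).symm
  · refine fun V hV V' h a ↦ (hbu V' _ _ _ fun i ↦ ?_).symm
    have e := congrArg (mres N (inf_le_inf h le_rfl : V' ⊓ X.basicOpen (g i) ≤ V ⊓ X.basicOpen (g i)))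
      (hb V hV a i)
    rw [mres_mres, ← HomOn.map_res, mres_mres] at e
    rw [mres_mres, mres_mres]
    exact e
  · refine (hbu W le_rfl a (ψ a) fun i ↦ ?_).symm
    have e1 := ((hs i).homOn (t i)).map_res _ le_rfl (W ⊓ X.basicOpen (g i)) inf_le_right
      (mres M (hle i) a)
    rw [mres_mres, key i a, mres_mres] at e1
    exact e1.symm

end Affine

namespace CurveModel

variable {k : Type u} [Field k] {C : Scheme.{u}} {c : C ⟶ Spec (CommRingCat.of k)}
  {ε : SchemeHomOver (𝟙 (Spec (CommRingCat.of k))) c} (𝓒 : CurveModel c ε)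
  {R : Type u} [CommRing R] [Algebra k R]
  {M N : (Limits.pullback c (specTo k R)).Modules}

/-- linear over the functions of the chart -/
def toΓlinear (Q : AffineChart c) (e : Γ(M, Q.W R) →+ Γ(N, Q.W R))
    (h : ∀ a m, e (Q.φ R a • m) = Q.φ R a • e m) :
    Γ(M, Q.W R) →ₗ[Γ(Limits.pullback c (specTo k R), Q.W R)] Γ(N, Q.W R) where
  toFun := e
  map_add' := map_add e
  map_smul' r m := by
    obtain ⟨a, rfl⟩ := (Q.φ R).surjective r
    exact h a m

/-- Morphisms agreeing on the sections over both charts are equal. -/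
lemma hom_ext_charts (hM : Scheme.Modules.IsInvertible M) (φ ψ : M ⟶ N)
    (hA : ∀ m, φ.app (𝓒.WA R) m = ψ.app (𝓒.WA R) m)
    (hB : ∀ m, φ.app (𝓒.WB R) m = ψ.app (𝓒.WB R) m) : φ = ψ := by
  refine Scheme.Modules.hom_ext _ _ fun V ↦ ?_
  ext m
  refine mres_ext (M := N) (fun b : Bool ↦ V ⊓ bif b then 𝓒.WA R else 𝓒.WB R)
    (fun b ↦ inf_le_left) ?_ fun b ↦ ?_
  · rw [← inf_iSup_eq, iSup_bool_eq, Bool.cond_true, Bool.cond_false, 𝓒.WA_sup_WB, inf_top_eq]
  · rw [← app_mres, ← app_mres]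
    cases b
    · exact homOn_ext_affine hM (𝓒.chartB.isAffineOpen_W R) (HomOn.ofHom φ _) (HomOn.ofHom ψ _) hB
        inf_le_right _
    · exact homOn_ext_affine hM (𝓒.chartA.isAffineOpen_W R) (HomOn.ofHom φ _) (HomOn.ofHom ψ _) hA
        inf_le_right _

variable (hM : Scheme.Modules.IsInvertible M) (hN : Scheme.Modules.IsInvertible N)

/-- A map of triples gives a morphism of sheaves. -/
lemma exists_hom_of_equiv (e : TwoChart.Tri.Equiv (𝓒.toTri M hM) (𝓒.toTri N hN)) :
    ∃ φ : M ⟶ N, (∀ m, φ.app (𝓒.WA R) m = e.eA m) ∧ (∀ m, φ.app (𝓒.WB R) m = e.eB m) := by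
  obtain ⟨FA, hFA⟩ := exists_homOn_of_linear (N := N) hM (𝓒.chartA.isAffineOpen_W R)
    (toΓlinear 𝓒.chartA e.eA.toLinearMap.toAddMonoidHom fun a m ↦ e.eA.map_smul a m)
  obtain ⟨FB, hFB⟩ := exists_homOn_of_linear (N := N) hM (𝓒.chartB.isAffineOpen_W R)
    (toΓlinear 𝓒.chartB e.eB.toLinearMap.toAddMonoidHom fun a m ↦ e.eB.map_smul a m)
  have onW : ∀ {U : (Limits.pullback c (specTo k R)).Opens} (hle : 𝓒.WW R ≤ U)
      (f : Γ(Limits.pullback c (specTo k R), U)) (hU : IsAffineOpen U)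
      (hf : 𝓒.WW R = (Limits.pullback c (specTo k R)).basicOpen f) (F : HomOn M N U)
      (_ : ∀ a : Γ(M, U), mres N hle (F.app U le_rfl a) =
        (show Γ(N, 𝓒.WW R) from e.eW (show 𝓒.SecW M from mres M hle a))) (w : Γ(M, 𝓒.WW R)),
      F.app (𝓒.WW R) hle w = (show Γ(N, 𝓒.WW R) from e.eW (show 𝓒.SecW M from w)) := by
    intro U hle f hU hf F hF w
    obtain ⟨n, a, ha⟩ := surj_aux hM hU f hf hle w
    have hu : IsUnit (ores (Limits.pullback c (specTo k R)) hle f ^ n) :=
      (isUnit_ores_basicOpen f hf.le hle).pow n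
    refine hu.smul_left_cancel.1 ?_
    rw [← HomOn.map_smul, ha, F.map_res U le_rfl _ hle a, hF a, ← ha]
    obtain ⟨z, hz⟩ := (𝓒.φW R).surjective (ores (Limits.pullback c (specTo k R)) hle f ^ n)
    rw [← hz]
    exact e.eW.map_smul z w
  have hA := onW (𝓒.WW_le_WA R) _ (𝓒.chartA.isAffineOpen_W R) (𝓒.WW_eq_basicOpen_A R) FA
    fun a ↦ by rw [hFA a]; exact (e.commA a).symm
  have hB := onW (𝓒.WW_le_WB R) _ (𝓒.chartB.isAffineOpen_W R) (𝓒.WW_eq_basicOpen_B R) FB
    fun a ↦ by rw [hFB a]; exact (e.commB a).symm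
  have hagree : ∀ V (h1 : V ≤ 𝓒.WA R) (h2 : V ≤ 𝓒.WB R) (m : Γ(M, V)),
      FA.app V h1 m = FB.app V h2 m := fun V h1 h2 m ↦
    homOn_ext_affine hM (𝓒.chartW.isAffineOpen_W R) (FA.restrict (𝓒.WW_le_WA R))
      (FB.restrict (𝓒.WW_le_WB R)) (fun a ↦ (hA a).trans (hB a).symm)
      ((le_inf h1 h2).trans (𝓒.WA_inf_WB_le)) m
  let U : Bool → (Limits.pullback c (specTo k R)).Opens := fun b ↦ bif b then 𝓒.WA R else 𝓒.WB R
  obtain ⟨φ, hφ, -⟩ := HomOn.existsUnique_glue (M := M) (N := N) U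
    (by simp only [U, iSup_bool_eq, Bool.cond_true, Bool.cond_false]; exact 𝓒.WA_sup_WB R)
    (fun b ↦ by cases b; exacts [FB, FA])
    (by
      rintro (_ | _) (_ | _) V h1 h2 m
      exacts [rfl, (hagree V h2 h1 m).symm, hagree V h1 h2 m, rfl])
  exact ⟨φ, fun m ↦ (hφ true _ le_rfl m).trans (hFA m), fun m ↦ (hφ false _ le_rfl m).trans (hFB m)⟩

include hM hN in
/-- Isomorphic triples come from isomorphic sheaves. -/
lemma nonempty_iso_of_equiv (e : TwoChart.Tri.Equiv (𝓒.toTri M hM) (𝓒.toTri N hN)) :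
    Nonempty (M ≅ N) := by
  obtain ⟨φ, hφA, hφB⟩ := 𝓒.exists_hom_of_equiv hM hN e
  obtain ⟨ψ, hψA, hψB⟩ := 𝓒.exists_hom_of_equiv hN hM
    { eA := e.eA.symm
      eB := e.eB.symm
      eW := e.eW.symm
      commA := fun m ↦ by rw [LinearEquiv.symm_apply_eq, e.commA, LinearEquiv.apply_symm_apply]
      commB := fun m ↦ by rw [LinearEquiv.symm_apply_eq, e.commB, LinearEquiv.apply_symm_apply] }
  refine ⟨⟨φ, ψ, 𝓒.hom_ext_charts hM _ _ (fun m ↦ ?_) (fun m ↦ ?_),
    𝓒.hom_ext_charts hN _ _ (fun m ↦ ?_) (fun m ↦ ?_)⟩⟩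
  · change ψ.app _ (φ.app _ m) = m
    exact (congrArg (ψ.app (𝓒.WA R)) (hφA m)).trans ((hψA _).trans (e.eA.symm_apply_apply m))
  · change ψ.app _ (φ.app _ m) = m
    exact (congrArg (ψ.app (𝓒.WB R)) (hφB m)).trans ((hψB _).trans (e.eB.symm_apply_apply m))
  · change φ.app _ (ψ.app _ m) = m
    exact (congrArg (φ.app (𝓒.WA R)) (hψA m)).trans ((hφA _).trans (e.eA.apply_symm_apply m))
  · change φ.app _ (ψ.app _ m) = m
    exact (congrArg (φ.app (𝓒.WB R)) (hψB m)).trans ((hφB _).trans (e.eB.apply_symm_apply m))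

/-- Isomorphic sheaves give isomorphic triples. -/
def equivOfIso (i : M ≅ N) : TwoChart.Tri.Equiv (𝓒.toTri M hM) (𝓒.toTri N hN) where
  eA :=
    { toFun := fun m ↦ i.hom.app (𝓒.WA R) m
      map_add' := fun m m' ↦ map_add (i.hom.app (𝓒.WA R)).hom _ _
      map_smul' := fun a m ↦ i.hom.app_smul (𝓒.φA R a) (show Γ(M, 𝓒.WA R) from m)
      invFun := fun m ↦ i.inv.app (𝓒.WA R) m
      left_inv := fun m ↦ CategoryTheory.congr_fun (congrArg (fun f ↦ Scheme.Modules.Hom.app f (𝓒.WA R))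
        i.hom_inv_id) (show Γ(M, 𝓒.WA R) from m)
      right_inv := fun m ↦ CategoryTheory.congr_fun (congrArg (fun f ↦ Scheme.Modules.Hom.app f (𝓒.WA R))
        i.inv_hom_id) (show Γ(N, 𝓒.WA R) from m) }
  eB :=
    { toFun := fun m ↦ i.hom.app (𝓒.WB R) m
      map_add' := fun m m' ↦ map_add (i.hom.app (𝓒.WB R)).hom _ _
      map_smul' := fun a m ↦ i.hom.app_smul (𝓒.φB R a) (show Γ(M, 𝓒.WB R) from m)
      invFun := fun m ↦ i.inv.app (𝓒.WB R) m
      left_inv := fun m ↦ CategoryTheory.congr_fun (congrArg (fun f ↦ Scheme.Modules.Hom.app f (𝓒.WB R))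
        i.hom_inv_id) (show Γ(M, 𝓒.WB R) from m)
      right_inv := fun m ↦ CategoryTheory.congr_fun (congrArg (fun f ↦ Scheme.Modules.Hom.app f (𝓒.WB R))
        i.inv_hom_id) (show Γ(N, 𝓒.WB R) from m) }
  eW :=
    { toFun := fun m ↦ i.hom.app (𝓒.WW R) m
      map_add' := fun m m' ↦ map_add (i.hom.app (𝓒.WW R)).hom _ _
      map_smul' := fun a m ↦ i.hom.app_smul (𝓒.φW R a) (show Γ(M, 𝓒.WW R) from m)
      invFun := fun m ↦ i.inv.app (𝓒.WW R) m
      left_inv := fun m ↦ CategoryTheory.congr_fun (congrArg (fun f ↦ Scheme.Modules.Hom.app f (𝓒.WW R))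
        i.hom_inv_id) (show Γ(M, 𝓒.WW R) from m)
      right_inv := fun m ↦ CategoryTheory.congr_fun (congrArg (fun f ↦ Scheme.Modules.Hom.app f (𝓒.WW R))
        i.inv_hom_id) (show Γ(N, 𝓒.WW R) from m) }
  commA m := app_mres i.hom (𝓒.WW_le_WA R) m
  commB m := app_mres i.hom (𝓒.WW_le_WB R) m

end CurveModel

end

end Fermat.Agent.Picard
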